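import Fermat.Agent.X015.Dioph3

set_option autoImplicit false

namespace Fermat.Agent.X015

lemma coprime_25 {q p e : ℤ} (hqp : IsCoprime q p) (h1 : e ∣ 25 * q ^ 2) (h2 : e ∣ 25 * p ^ 2) :
    e ∣ 25 := by
  obtain ⟨u, v, huv⟩ := (hqp.pow (m := 2) (n := 2))
  have := (h1.mul_left u).add (h2.mul_left v)
  have h15 : u * (25 * q ^ 2) + v * (25 * p ^ 2) = 25 := by linear_combination 25 * huv
  rwa [h15] at this

/-- Integral form of the second half of the `2`-descent. -/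
lemma descent_int {f g n : ℤ} (hfg : IsCoprime f g) (hf : f ≠ 0) (hg : 0 < g)
    (h : f * g * (f - 4 * g) * (4 * f + 9 * g) = n ^ 2) :
    (∃ q p : ℤ, p ≠ 0 ∧ g = p ^ 2 ∧ (f = q ^ 2 ∨ f = - q ^ 2)) ∧
    (∃ w p : ℤ, p ≠ 0 ∧ g = p ^ 2 ∧ (4 * f + 9 * g = w ^ 2 ∨ 4 * f + 9 * g = 5 * w ^ 2)) := by
  obtain ⟨q, hq0, hq⟩ := f_sq hfg hf (n := n) (by rw [← h]; ring)
  obtain ⟨p, hp0, hp⟩ := g_sq hfg hg (n := n) (by rw [← h]; ring)
  refine ⟨⟨q, p, hp0, hp, hq⟩, ?_⟩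
  have hp2 : 0 < p ^ 2 := by positivity
  have hq2 : 0 < q ^ 2 := by positivity
  subst hp
  rcases hq with rfl | rfl
  · have hqp : IsCoprime q p := by
      have := hfg
      rwa [IsCoprime.pow_iff two_pos two_pos] at this
    obtain ⟨n', rfl⟩ : q * p ∣ n := dvd_of_sq_dvd_sq
      ⟨(q ^ 2 - 4 * p ^ 2) * (4 * q ^ 2 + 9 * p ^ 2), by rw [← h]; ring⟩
    have h' : (q ^ 2 - 4 * p ^ 2) * (4 * q ^ 2 + 9 * p ^ 2) = n' ^ 2 := by
      apply mul_left_cancel₀ (pow_ne_zero 2 (mul_ne_zero hq0 hp0))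
      linear_combination h
    obtain ⟨e, b, heB, hesq, heA, heB', he0, hb0⟩ := sqfree_part (by positivity) h'
    have he25 : e ∣ 25 := by
      apply coprime_25 hqp
      · rw [show 25 * q ^ 2 = 9 * (q ^ 2 - 4 * p ^ 2) + 4 * (4 * q ^ 2 + 9 * p ^ 2) by ring]
        exact (heA.mul_left 9).add (heB'.mul_left 4)
      · rw [show 25 * p ^ 2 = (4 * q ^ 2 + 9 * p ^ 2) - 4 * (q ^ 2 - 4 * p ^ 2) by ring]
        exact heB'.sub (heA.mul_left 4)
    have he5 : e ∣ 5 := by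
      have : e ∣ 5 ^ 2 := by norm_num; exact he25
      exact (hesq.dvd_pow_iff_dvd two_ne_zero).mp this
    have hepos : 0 < e := by
      have hy2 : 0 < b ^ 2 := by positivity
      by_contra hneg
      push Not at hneg
      nlinarith
    refine ⟨b, p, hp0, rfl, ?_⟩
    rcases dvd_five' he5 with rfl | rfl | rfl | rfl
    · left; linarith
    · right; linarith
    · omega
    · omega
  · have hqp : IsCoprime q p := by
      have := hfg.neg_left
      rw [neg_neg] at this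
      rwa [IsCoprime.pow_iff two_pos two_pos] at this
    obtain ⟨n', rfl⟩ : q * p ∣ n := dvd_of_sq_dvd_sq
      ⟨(q ^ 2 + 4 * p ^ 2) * (9 * p ^ 2 - 4 * q ^ 2), by rw [← h]; ring⟩
    have h' : (q ^ 2 + 4 * p ^ 2) * (9 * p ^ 2 - 4 * q ^ 2) = n' ^ 2 := by
      apply mul_left_cancel₀ (pow_ne_zero 2 (mul_ne_zero hq0 hp0))
      linear_combination h
    by_cases hz : 9 * p ^ 2 - 4 * q ^ 2 = 0
    · exact ⟨0, p, hp0, rfl, Or.inl (by linarith)⟩
    obtain ⟨e, b, heB, hesq, heA, heB', he0, hb0⟩ := sqfree_part hz h'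
    have he25 : e ∣ 25 := by
      apply coprime_25 hqp
      · rw [show 25 * q ^ 2 = 9 * (q ^ 2 + 4 * p ^ 2) - 4 * (9 * p ^ 2 - 4 * q ^ 2) by ring]
        exact (heA.mul_left 9).sub (heB'.mul_left 4)
      · rw [show 25 * p ^ 2 = 4 * (q ^ 2 + 4 * p ^ 2) + (9 * p ^ 2 - 4 * q ^ 2) by ring]
        exact (heA.mul_left 4).add heB'
    have he5 : e ∣ 5 := by
      have : e ∣ 5 ^ 2 := by norm_num; exact he25
      exact (hesq.dvd_pow_iff_dvd two_ne_zero).mp this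
    have hpos : 0 < q ^ 2 + 4 * p ^ 2 := by positivity
    have hBnn : 0 ≤ 9 * p ^ 2 - 4 * q ^ 2 := by
      by_contra hneg
      push Not at hneg
      nlinarith [sq_nonneg n']
    have hepos : 0 < e := by
      have hy2 : 0 < b ^ 2 := by positivity
      by_contra hneg
      push Not at hneg
      have : e * b ^ 2 ≤ 0 := by nlinarith
      have h0 : 9 * p ^ 2 - 4 * q ^ 2 = 0 := by linarith
      exact hz h0
    refine ⟨b, p, hp0, rfl, ?_⟩
    rcases dvd_five' he5 with rfl | rfl | rfl | rfl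
    · left; linarith
    · right; linarith
    · omega
    · omega

/-- A rational number whose square is an integer is an integer. -/
lemma exists_int_of_sq {x : ℚ} {n : ℤ} (h : x ^ 2 = n) : ∃ m : ℤ, x = m := by
  have hd : (x.den : ℚ) ≠ 0 := by exact_mod_cast x.den_ne_zero
  have hx : x * x.den = x.num := Rat.mul_den_eq_num x
  have h1 : (x.num : ℤ) ^ 2 = n * (x.den : ℤ) ^ 2 := by
    have : ((x.num ^ 2 : ℤ) : ℚ) = ((n * (x.den : ℤ) ^ 2 : ℤ) : ℚ) := by
      push_cast; rw [← hx, ← h]; ring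
    exact_mod_cast this
  obtain ⟨m, hm⟩ : (x.den : ℤ) ∣ x.num := dvd_of_sq_dvd_sq ⟨n, by rw [h1]; ring⟩
  refine ⟨m, ?_⟩
  apply mul_right_cancel₀ hd
  rw [hx, hm]; push_cast; ring

/-- The `2`-descent on `X₀(15)`. -/
lemma descent_rat {θ Y : ℚ} (h0 : θ ≠ 0) (h : Y ^ 2 = θ * (θ - 4) * (4 * θ + 9)) :
    (∃ t : ℚ, θ = t ^ 2 ∨ θ = -t ^ 2) ∧ (∃ w : ℚ, 4 * θ + 9 = w ^ 2 ∨ 4 * θ + 9 = 5 * w ^ 2) := by
  have hd : (θ.den : ℚ) ≠ 0 := by exact_mod_cast θ.den_ne_zero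
  have hθ : θ * θ.den = θ.num := Rat.mul_den_eq_num θ
  obtain ⟨n, hn⟩ : ∃ n : ℤ, Y * (θ.den : ℚ) ^ 2 = n := by
    apply exists_int_of_sq (n := θ.num * θ.den * (θ.num - 4 * θ.den) * (4 * θ.num + 9 * θ.den))
    push_cast
    rw [← hθ, mul_pow, h]; ring
  have hint : θ.num * (θ.den : ℤ) * (θ.num - 4 * (θ.den : ℤ)) * (4 * θ.num + 9 * (θ.den : ℤ)) = n ^ 2 := by
    have : ((θ.num * (θ.den : ℤ) * (θ.num - 4 * (θ.den : ℤ)) * (4 * θ.num + 9 * (θ.den : ℤ)) : ℤ) : ℚ)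
        = ((n ^ 2 : ℤ) : ℚ) := by
      push_cast; rw [← hθ, ← hn, mul_pow, h]; ring
    exact_mod_cast this
  have hcop : IsCoprime θ.num (θ.den : ℤ) := by
    rw [Int.isCoprime_iff_gcd_eq_one]
    exact θ.reduced
  obtain ⟨⟨q, p, hp0, hp, hq⟩, ⟨w, p', hp0', hp', hw⟩⟩ :=
    descent_int hcop (Rat.num_ne_zero.mpr h0) (by exact_mod_cast θ.den_pos) hint
  have hθ' : θ = θ.num / θ.den := by rw [eq_div_iff hd, hθ]
  constructor
  · have hpq : (θ.den : ℚ) = (p : ℚ) ^ 2 := by exact_mod_cast hp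
    have hp0q : (p : ℚ) ≠ 0 := by exact_mod_cast hp0
    refine ⟨q / p, ?_⟩
    rcases hq with hq | hq
    · left
      have hq' : (θ.num : ℚ) = (q : ℚ) ^ 2 := by exact_mod_cast hq
      rw [hθ', hpq, hq']; field_simp
    · right
      have hq' : (θ.num : ℚ) = -(q : ℚ) ^ 2 := by exact_mod_cast hq
      rw [hθ', hpq, hq']; field_simp
  · have hpq : (θ.den : ℚ) = (p' : ℚ) ^ 2 := by exact_mod_cast hp'
    have hp0q : (p' : ℚ) ≠ 0 := by exact_mod_cast hp0'
    refine ⟨w / p', ?_⟩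
    rcases hw with hw | hw
    · left
      have hw' : 4 * (θ.num : ℚ) + 9 * (θ.den : ℚ) = (w : ℚ) ^ 2 := by exact_mod_cast hw
      rw [← hθ, hpq] at hw'
      field_simp
      linarith
    · right
      have hw' : 4 * (θ.num : ℚ) + 9 * (θ.den : ℚ) = 5 * (w : ℚ) ^ 2 := by exact_mod_cast hw
      rw [← hθ, hpq] at hw'
      field_simp
      linarith

/-- The class `d = 1`. -/
lemma class_one {θ Y w : ℚ} (h0 : θ ≠ 0) (h : Y ^ 2 = θ * (θ - 4) * (4 * θ + 9))
    (hw : 4 * θ + 9 = w ^ 2) : θ = 4 ∨ θ = -9 / 4 := by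
  obtain ⟨⟨t, ht⟩, -⟩ := descent_rat h0 h
  rcases ht with rfl | rfl
  · left
    have ht0 : t ≠ 0 := by rintro rfl; simp at h0
    have hw0 : w ≠ 0 := by
      rintro rfl
      nlinarith [sq_nonneg t]
    have h1 : t ^ 2 - 4 = (Y / (t * w)) ^ 2 := by
      field_simp
      rw [h, hw]
    have := I1_rat h1 hw
    rw [this] at h1
    linarith
  · right
    have ht0 : t ≠ 0 := by rintro rfl; simp at h0
    by_cases hw0 : w = 0
    · subst hw0; linarith
    exfalso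
    have h1 : t ^ 2 + 4 = (Y / (t * w)) ^ 2 := by
      field_simp
      rw [h, hw]; ring
    rcases II1_rat (w := w) h1 (by linarith) with h' | h'
    · exact ht0 h'
    · exact hw0 h'

/-- The rational points on `X₀(15)`. -/
theorem X015_points {θ Y : ℚ} (h0 : θ ≠ 0) (h : Y ^ 2 = θ * (θ - 4) * (4 * θ + 9)) :
    θ = 4 ∨ θ = -9 / 4 ∨ θ = 9 ∨ θ = -1 := by
  obtain ⟨-, ⟨w, hw⟩⟩ := descent_rat h0 h
  rcases hw with hw | hw
  · rcases class_one h0 h hw with h' | h'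
    · exact Or.inl h'
    · exact Or.inr (Or.inl h')
  by_cases h9 : θ = 9
  · exact Or.inr (Or.inr (Or.inl h9))
  by_cases hw0 : w = 0
  · subst hw0; right; left; linarith
  have h9' : θ - 9 ≠ 0 := sub_ne_zero.mpr h9
  obtain ⟨l, hl⟩ : ∃ l, l * (θ - 9) = Y - 45 := ⟨(Y - 45) / (θ - 9), by field_simp⟩
  set θ' : ℚ := (l ^ 2 + 7) / 4 - θ - 9 with hθ'
  have hY : Y = 45 + l * (θ - 9) := by linarith
  -- the cubic identity
  have hcub : ∀ x : ℚ, 4 * (x - θ) * (x - 9) * (x - θ') =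
      4 * x ^ 3 - 7 * x ^ 2 - 36 * x - (45 + l * (x - 9)) ^ 2 := by
    intro x
    -- compare coefficients: the remaining relation is the curve equation divided by `θ - 9`
    have hrel : 36 * θ * 9 + 0 = 36 * θ * 9 := by ring
    have h2 : (45 + l * (θ - 9)) ^ 2 = θ * (θ - 4) * (4 * θ + 9) := by rw [← hY]; exact h
    have h3 : 90 * l + l ^ 2 * (θ - 9) = 4 * θ ^ 2 + 29 * θ + 225 := by
      apply mul_left_cancel₀ h9'
      linear_combination h2
    rw [hθ']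
    linear_combination (x - 9) * h3
  have hE : (-(45 + l * (θ' - 9))) ^ 2 = θ' * (θ' - 4) * (4 * θ' + 9) := by
    have := hcub θ'
    linear_combination this
  have hsq : (4 * θ + 9) * 45 * (4 * θ' + 9) = (180 - 45 * l) ^ 2 := by
    have := hcub (-9 / 4)
    linear_combination (-16) * this
  have hw' : 4 * θ' + 9 = ((12 - 3 * l) / w) ^ 2 := by
    field_simp
    rw [hw] at hsq
    linear_combination hsq / 225
  have hθ'3 : θ' = 0 ∨ θ' = 4 ∨ θ' = -9 / 4 := by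
    by_cases h' : θ' = 0
    · exact Or.inl h'
    · exact Or.inr (class_one h' hE hw')
  have hl2 : ∀ c, θ' = c → (Y - 45) ^ 2 = (4 * c + 4 * θ + 29) * (θ - 9) ^ 2 := by
    intro c hc
    have : l ^ 2 = 4 * c + 4 * θ + 29 := by rw [hθ'] at hc; linarith
    rw [← hl, ← this]; ring
  right; right; right
  have hfin : (θ ^ 2 - 8 * θ - 9) ^ 2 = 0 → θ = -1 := by
    intro hz
    have h1 : (θ - 9) * (θ + 1) = 0 := by
      have := pow_eq_zero_iff (two_ne_zero) |>.mp hz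
      linear_combination this
    rcases mul_eq_zero.mp h1 with h2 | h2
    · exact absurd h2 h9'
    · linarith
  rcases hθ'3 with hc | hc | hc
  · have h1 := hl2 _ hc
    have h2 : 5 * Y = 2 * θ ^ 2 + 9 * θ - 18 := by
      linear_combination (h - h1) / 18
    apply hfin
    have h3 : (5 * Y) ^ 2 = 25 * (θ * (θ - 4) * (4 * θ + 9)) := by rw [mul_pow, h]; norm_num
    rw [h2] at h3
    linear_combination h3 / 4
  · exfalso
    have h1 := hl2 _ hc
    have h2 : 9 * Y = 2 * θ ^ 2 + 45 * θ - 162 := by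
      linear_combination (h - h1) / 10
    have h3 : (9 * Y) ^ 2 = 81 * (θ * (θ - 4) * (4 * θ + 9)) := by rw [mul_pow, h]; norm_num
    rw [h2] at h3
    have h4 : (θ - 9) ^ 4 = 0 := by linear_combination h3 / 4
    exact h9' (pow_eq_zero_iff (by norm_num) |>.mp h4)
  · have h1 := hl2 _ hc
    have h2 : 2 * Y = θ ^ 2 + 9 := by
      linear_combination (h - h1) / 45
    apply hfin
    have h3 : (2 * Y) ^ 2 = 4 * (θ * (θ - 4) * (4 * θ + 9)) := by rw [mul_pow, h]; norm_num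
    rw [h2] at h3
    linear_combination h3

end Fermat.Agent.X015
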