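import Fermat.Agent.X015.Line
import Fermat.Agent.X015.Dioph4

set_option autoImplicit false

/-!
# No semistable curve with both mod 3 and mod 5 representations reducible
-/

namespace Fermat.Agent.X015

open WeierstrassCurve WeierstrassCurve.Affine WeierstrassCurve.Affine.Point

/-- From `(μ, ρ, ζ)` to a rational point of `X₀(15)`. -/
lemma mu_values {μ ρ ζ : ℚ} (E1 : (1 - 3 * ζ) * μ + (1 - ζ) * ρ = -6 * ζ ^ 2)
    (E2 : ρ ^ 2 = (1 - 4 * ζ) * (μ ^ 2 + 4)) :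
    μ = -3 / 2 ∨ μ = 63 / 8 ∨ μ = 11 ∨ μ = -29 ∨ μ = 1 := by
  have hζ : ζ ≠ 0 := by
    rintro rfl
    have h1 : ρ = -μ := by linarith
    rw [h1] at E2
    linarith
  obtain ⟨θ, hθζ⟩ : ∃ θ, θ * ζ = 1 := ⟨1 / ζ, by field_simp⟩
  have hθ : θ ≠ 0 := by rintro rfl; simp at hθζ
  have E1' : θ * (θ - 3) * μ + θ * (θ - 1) * ρ = -6 := by
    linear_combination θ ^ 2 * E1 + (3 * θ * μ + θ * ρ - 6 * (θ * ζ + 1)) * hθζ
  have E2' : θ * ρ ^ 2 = (θ - 4) * (μ ^ 2 + 4) := by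
    linear_combination θ * E2 - 4 * (μ ^ 2 + 4) * hθζ
  obtain ⟨Y, hY⟩ : ∃ Y, Y = θ * (μ + ρ + 3) - 6 := ⟨_, rfl⟩
  have hμ : 2 * θ * μ = (θ - 1) * Y - 3 * θ * (θ - 3) := by
    rw [hY]; linear_combination -E1'
  have hρ : 2 * θ * ρ = 3 * (θ - 1) * (θ - 4) - (θ - 3) * Y := by
    rw [hY]; linear_combination E1'
  have hcurve : Y ^ 2 = θ * (θ - 4) * (4 * θ + 9) := by
    have h : θ * (3 * (θ - 1) * (θ - 4) - (θ - 3) * Y) ^ 2
        - (θ - 4) * (((θ - 1) * Y - 3 * θ * (θ - 3)) ^ 2 + 16 * θ ^ 2) = 0 := by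
      rw [← hρ, ← hμ]; linear_combination 4 * θ ^ 2 * E2'
    linear_combination h / 4
  rcases X015_points hθ hcurve with rfl | rfl | rfl | rfl
  · have h0 : Y = 0 := by
      have : Y ^ 2 = 0 := by rw [hcurve]; norm_num
      exact (pow_eq_zero_iff two_ne_zero).mp this
    left
    rw [h0] at hμ; linarith
  · have h0 : Y = 0 := by
      have : Y ^ 2 = 0 := by rw [hcurve]; norm_num
      exact (pow_eq_zero_iff two_ne_zero).mp this
    right; left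
    rw [h0] at hμ; linarith
  · have h0 : (Y - 45) * (Y + 45) = 0 := by linear_combination hcurve
    rcases mul_eq_zero.mp h0 with h | h
    · right; right; left
      have : Y = 45 := by linarith
      rw [this] at hμ; linarith
    · right; right; right; left
      have : Y = -45 := by linarith
      rw [this] at hμ; linarith
  · have h0 : (Y - 5) * (Y + 5) = 0 := by linear_combination hcurve
    rcases mul_eq_zero.mp h0 with h | h
    · right; right; left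
      have : Y = 5 := by linarith
      rw [this] at hμ; linarith
    · right; right; right; right
      have : Y = -5 := by linarith
      rw [this] at hμ; linarith

/-- The invariants of a rational curve with both 3- and 5- isogenies. -/
lemma exists_mu {E : WeierstrassCurve ℚ} {x r g : ℚ} (hx : psiThree E x = 0) (hg : g ≠ 0)
    (h1 : psiTwoSq E r = (E.b₂ + 12 * r) * g)
    (h2 : psiThree E r = 5 * g ^ 2 + (6 * r ^ 2 + E.b₂ * r + E.b₄) * g) :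
    ∃ μ : ℚ, (μ = -3 / 2 ∨ μ = 63 / 8 ∨ μ = 11 ∨ μ = -29 ∨ μ = 1) ∧
      E.c₄ = 4 * g * (μ ^ 2 - 12 * μ + 16) ∧ E.Δ = 64 * g ^ 3 * (μ - 11) := by
  -- translate
  obtain ⟨β, hβ⟩ : ∃ β, β = E.b₂ + 12 * r := ⟨_, rfl⟩
  obtain ⟨γ, hγ⟩ : ∃ γ, γ = 6 * r ^ 2 + E.b₂ * r + E.b₄ := ⟨_, rfl⟩
  obtain ⟨t, ht⟩ : ∃ t, t = x - r := ⟨_, rfl⟩
  obtain ⟨μ, hμ⟩ : ∃ μ, 2 * g * (μ - 1) = γ := ⟨1 + γ / (2 * g), by field_simp; ring⟩
  obtain ⟨ρ, hρ⟩ : ∃ ρ, 2 * g * ρ = β * t := ⟨β * t / (2 * g), by field_simp⟩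
  obtain ⟨ζ, hζ⟩ : ∃ ζ, 4 * g * ζ = g - t ^ 2 := ⟨(g - t ^ 2) / (4 * g), by field_simp⟩
  rw [← hβ] at h1
  rw [← hγ] at h2
  -- the invariants after translation
  have hb8 : 4 * (5 * g ^ 2 + γ * g) = β * (β * g) - γ ^ 2 := by
    rw [← h2, ← h1, hβ, hγ]
    simp only [psiThree, psiTwoSq]
    linear_combination E.b_relation
  have K : β ^ 2 = 4 * g * (μ ^ 2 + 4) := by
    apply mul_left_cancel₀ hg
    rw [← hμ] at hb8
    linear_combination -hb8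
  have T : 3 * t ^ 4 + β * t ^ 3 + 3 * γ * t ^ 2 + 3 * (β * g) * t + (5 * g ^ 2 + γ * g) = 0 := by
    rw [← h2, ← h1, hβ, hγ, ht, ← hx]
    simp only [psiThree, psiTwoSq]
    ring
  have hg2 : g ^ 2 ≠ 0 := pow_ne_zero 2 hg
  have ht2 : t ^ 2 = g * (1 - 4 * ζ) := by linear_combination hζ
  refine ⟨μ, mu_values (ρ := ρ) (ζ := ζ) ?_ ?_, ?_, ?_⟩
  · apply mul_left_cancel₀ hg2
    have e : 3 * (t ^ 2) ^ 2 + (β * t) * t ^ 2 + 3 * γ * t ^ 2 + 3 * g * (β * t)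
        + (5 * g ^ 2 + γ * g) = 0 := by linear_combination T
    rw [← hρ, ← hμ, ht2] at e
    linear_combination e / 8
  · apply mul_left_cancel₀ (mul_ne_zero four_ne_zero hg2)
    calc 4 * g ^ 2 * ρ ^ 2 = (2 * g * ρ) ^ 2 := by ring
      _ = β ^ 2 * t ^ 2 := by rw [hρ]; ring
      _ = 4 * g ^ 2 * ((1 - 4 * ζ) * (μ ^ 2 + 4)) := by rw [K, ht2]; ring
  · have : E.c₄ = β ^ 2 - 24 * γ := by
      rw [hβ, hγ]; simp only [c₄]; ring
    rw [this, K, ← hμ]; ring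
  · have : E.Δ = -β ^ 2 * (5 * g ^ 2 + γ * g) - 8 * γ ^ 3 - 27 * (β * g) ^ 2 + 9 * β * γ * (β * g) := by
      rw [← h2, ← h1, hβ, hγ]
      simp only [Δ, psiThree, psiTwoSq]
      linear_combination (6 * r * E.b₂ + 36 * r ^ 2) * E.b_relation
    rw [this, ← hμ]
    linear_combination (8 * (2 * g * (μ - 1)) * g - 32 * g ^ 2) * K

lemma five_dvd_of {a b c d : ℤ} (ha : ¬ (5 : ℤ) ∣ a) (h : a * c ^ 3 = 5 * b * d) :
    (5 : ℤ) ∣ c := by
  have h5 : (5 : ℤ) ∣ a * c ^ 3 := ⟨b * d, by rw [h]; ring⟩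
  have hp5 : Prime (5 : ℤ) := by norm_num
  rcases hp5.dvd_or_dvd h5 with h | h
  · exact absurd h ha
  · exact hp5.dvd_of_dvd_pow h

lemma five_dvd_of' {a b d : ℤ} (ha : ¬ (5 : ℤ) ∣ a) (h : a * d = 5 * b) :
    (5 : ℤ) ∣ d := by
  have hp5 : Prime (5 : ℤ) := by norm_num
  rcases hp5.dvd_or_dvd (⟨b, h⟩ : (5 : ℤ) ∣ a * d) with h | h
  · exact absurd h ha
  · exact h

theorem not_both_reducible (W : WeierstrassCurve ℤ) (hΔ : W.Δ ≠ 0) (hW : W.IsSemistableModel)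
    (h3 : ¬ W.ModRepIsIrreducible 3) (h5 : ¬ W.ModRepIsIrreducible 5) : False := by
  set E : WeierstrassCurve ℚ := W.map (Int.castRingHom ℚ) with hE
  have hEΔ : E.Δ = (W.Δ : ℚ) := by rw [hE, WeierstrassCurve.map_Δ]; simp
  have hEc₄ : E.c₄ = (W.c₄ : ℚ) := by rw [hE, WeierstrassCurve.map_c₄]; simp
  have hΔ' : E.Δ ≠ 0 := by rw [hEΔ]; exact_mod_cast hΔ
  obtain ⟨x, hx⟩ := exists_x_three hΔ' h3
  obtain ⟨r, g, hg, e1, e2⟩ := exists_x_five hΔ' h5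
  obtain ⟨μ, hμ, hc, hd⟩ := exists_mu hx hg e1 e2
  have hrel : E.c₄ ^ 3 * (μ - 11) = E.Δ * (μ ^ 2 - 12 * μ + 16) ^ 3 := by
    rw [hc, hd]; ring
  rw [hEc₄, hEΔ] at hrel
  have hss := hW 5 Nat.prime_five
  push_cast at hss
  rcases hμ with rfl | rfl | rfl | rfl | rfl
  · have hint : -32 * W.c₄ ^ 3 = 121945 * W.Δ := by
      have : ((-32 * W.c₄ ^ 3 : ℤ) : ℚ) = ((121945 * W.Δ : ℤ) : ℚ) := by
        push_cast; linear_combination (64 / 25) * hrel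
      exact_mod_cast this
    have hc5 : (5 : ℤ) ∣ W.c₄ :=
      five_dvd_of (a := -32) (b := 24389) (d := W.Δ) (by norm_num) (by rw [hint]; ring)
    obtain ⟨k, hk⟩ := hc5
    apply hss _ ⟨k, hk⟩
    rw [hk] at hint
    exact five_dvd_of' (a := 24389) (b := -160 * k ^ 3) (by norm_num) (by linarith)
  · have hint : 32768 * W.c₄ ^ 3 = 46969655 * W.Δ := by
      have : ((32768 * W.c₄ ^ 3 : ℤ) : ℚ) = ((46969655 * W.Δ : ℤ) : ℚ) := by
        push_cast; linear_combination (-32768 * 8 / 25) * hrel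
      exact_mod_cast this
    have hc5 : (5 : ℤ) ∣ W.c₄ :=
      five_dvd_of (a := 32768) (b := 9393931) (d := W.Δ) (by norm_num) (by rw [hint]; ring)
    obtain ⟨k, hk⟩ := hc5
    apply hss _ ⟨k, hk⟩
    rw [hk] at hint
    exact five_dvd_of' (a := 9393931) (b := 163840 * k ^ 3) (by norm_num) (by linarith)
  · apply hΔ'
    rw [hd]; ring
  · have hint : -8 * W.c₄ ^ 3 = 349938025 * W.Δ := by
      have : ((-8 * W.c₄ ^ 3 : ℤ) : ℚ) = ((349938025 * W.Δ : ℤ) : ℚ) := by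
        push_cast; linear_combination (1 / 5) * hrel
      exact_mod_cast this
    have hc5 : (5 : ℤ) ∣ W.c₄ :=
      five_dvd_of (a := -8) (b := 69987605) (d := W.Δ) (by norm_num) (by rw [hint]; ring)
    obtain ⟨k, hk⟩ := hc5
    apply hss _ ⟨k, hk⟩
    rw [hk] at hint
    exact five_dvd_of' (a := 13997521) (b := -8 * k ^ 3) (by norm_num) (by linarith)
  · have hint : -2 * W.c₄ ^ 3 = 25 * W.Δ := by
      have : ((-2 * W.c₄ ^ 3 : ℤ) : ℚ) = ((25 * W.Δ : ℤ) : ℚ) := by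
        push_cast; linear_combination (1 / 5) * hrel
      exact_mod_cast this
    have hc5 : (5 : ℤ) ∣ W.c₄ :=
      five_dvd_of (a := -2) (b := 5) (d := W.Δ) (by norm_num) (by rw [hint]; ring)
    obtain ⟨k, hk⟩ := hc5
    apply hss _ ⟨k, hk⟩
    rw [hk] at hint
    exact five_dvd_of' (a := 1) (b := -2 * k ^ 3) (by norm_num) (by linarith)

end Fermat.Agent.X015
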