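import Fermat.Agent.X015.Counting
import Fermat.Prelude.Def_FLTPrelim_ModularRep

set_option autoImplicit false

/-!
# From reducibility to a rational line
-/

namespace Fermat.Agent.X015

open WeierstrassCurve WeierstrassCurve.Affine WeierstrassCurve.Affine.Point

lemma exists_line {p : ℕ} [Fact p.Prime] {V : Type*} [AddCommGroup V] [Module (ZMod p) V]
    [Finite V] (hcard : Nat.card V < p ^ 3) (N : Submodule (ZMod p) V) (hbot : N ≠ ⊥)
    (htop : N ≠ ⊤) : ∃ v ∈ N, v ≠ 0 ∧ ∀ w ∈ N, ∃ c : ZMod p, w = c • v := by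
  have : Module.Finite (ZMod p) V := inferInstance
  have h1 : Module.finrank (ZMod p) V ≤ 2 := by
    rw [Module.natCard_eq_pow_finrank (K := ZMod p), Nat.card_zmod] at hcard
    have := (Nat.pow_lt_pow_iff_right (Fact.out : p.Prime).one_lt).mp hcard
    omega
  have h2 : Module.finrank (ZMod p) N < Module.finrank (ZMod p) V := Submodule.finrank_lt htop.lt_top.ne
  obtain ⟨v, hv, hv0⟩ := N.exists_mem_ne_zero_of_ne_bot hbot
  have h3 : Module.finrank (ZMod p) N ≠ 0 := by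
    intro h
    exact hbot (Submodule.finrank_eq_zero.mp h)
  have h4 : Module.finrank (ZMod p) N = 1 := by omega
  refine ⟨v, hv, hv0, fun w hw => ?_⟩
  obtain ⟨c, hc⟩ := (finrank_eq_one_iff_of_nonzero' (⟨v, hv⟩ : N)
    (by simpa [Subtype.ext_iff] using hv0)).mp h4 ⟨w, hw⟩
  exact ⟨c, by simpa using (congrArg Subtype.val hc).symm⟩

abbrev Qbar := AlgebraicClosure ℚ

/-- elements of `ℚbar` fixed by all automorphisms are rational. -/
lemma exists_rat_of_fixed (x : Qbar) (h : ∀ σ : Qbar ≃ₐ[ℚ] Qbar, σ x = x) :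
    ∃ r : ℚ, x = algebraMap ℚ Qbar r := by
  have halg : Algebra.IsAlgebraic ℚ Qbar := AlgebraicClosure.isAlgebraic ℚ
  have hcl : IsAlgClosure ℚ Qbar := ⟨inferInstance, halg⟩
  have : IsGalois ℚ Qbar := ⟨⟩
  obtain ⟨r, hr⟩ := (InfiniteGalois.mem_range_algebraMap_iff_fixed (k := ℚ) (K := Qbar) x).mpr h
  exact ⟨r, hr.symm⟩

variable (E : WeierstrassCurve ℚ)

lemma smul_some (σ : Qbar ≃ₐ[ℚ] Qbar) {x y : Qbar} (h : (E⁄Qbar).Nonsingular x y) :
    ∃ h' : (E⁄Qbar).Nonsingular (σ x) (σ y),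
      σ • (some x y h : (E⁄Qbar).Point) = some (σ x) (σ y) h' :=
  ⟨_, rfl⟩

variable {E} in
lemma torsion_smul {p : ℕ} [Fact p.Prime] (c : ZMod p)
    (v : Submodule.torsionBy ℤ (E⁄Qbar).Point p) :
    ((c • v : Submodule.torsionBy ℤ (E⁄Qbar).Point p) : (E⁄Qbar).Point) =
      c.val • (v : (E⁄Qbar).Point) := by
  have h1 : c • v = c.val • v := by
    conv_lhs => rw [← ZMod.natCast_zmod_val c]
    rw [Nat.cast_smul_eq_nsmul]
  rw [h1]; rfl

lemma torsion_finite {p B : ℕ}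
    (hB : ∀ T : Set (E⁄Qbar).Point, (∀ P ∈ T, (p : ℕ) • P = 0) → T.Finite ∧ T.ncard ≤ B) :
    Finite (Submodule.torsionBy ℤ (E⁄Qbar).Point p) ∧
      Nat.card (Submodule.torsionBy ℤ (E⁄Qbar).Point p) ≤ B := by
  have := hB (Submodule.torsionBy ℤ (E⁄Qbar).Point p : Set (E⁄Qbar).Point) (by
    intro P hP
    have : (p : ℤ) • P = 0 := hP
    rw [← this]; simp)
  exact ⟨this.1.to_subtype, this.2⟩

variable {E}

lemma bc_b₂ : (E⁄Qbar).b₂ = algebraMap ℚ Qbar E.b₂ := E.map_b₂ _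
lemma bc_b₄ : (E⁄Qbar).b₄ = algebraMap ℚ Qbar E.b₄ := E.map_b₄ _
lemma bc_b₆ : (E⁄Qbar).b₆ = algebraMap ℚ Qbar E.b₆ := E.map_b₆ _
lemma bc_b₈ : (E⁄Qbar).b₈ = algebraMap ℚ Qbar E.b₈ := E.map_b₈ _

/-- A reducible mod 3 representation gives a rational root of the 3-division polynomial. -/
theorem exists_x_three (hΔ : E.Δ ≠ 0)
    (hred : ¬ GaloisRepIsIrreducible (K := Qbar) ℚ E 3) :
    ∃ x : ℚ, psiThree E x = 0 := by
  have : Fact (Nat.Prime 3) := ⟨Nat.prime_three⟩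
  have hΔ' : (E⁄Qbar).Δ ≠ 0 := by
    rw [show (E⁄Qbar).Δ = algebraMap ℚ Qbar E.Δ from E.map_Δ _]
    exact (map_ne_zero _).mpr hΔ
  obtain ⟨hfin, hcard⟩ := torsion_finite E (p := 3) (B := 9)
    (fun T hT => three_torsion_card (by norm_num) T hT)
  have hnt : Nontrivial (Submodule.torsionBy ℤ (E⁄Qbar).Point (3 : ℕ)) := by
    obtain ⟨P, hP0, hP⟩ := exists_three_torsion (W := (E⁄Qbar)) (by norm_num) hΔ'
    refine ⟨⟨⟨P, ?_⟩, 0, ?_⟩⟩
    · rw [Submodule.mem_torsionBy_iff, natCast_zsmul]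
      exact hP
    · intro h
      exact hP0 (congrArg Subtype.val h)
  have : ∃ N : Submodule (ZMod 3) (Submodule.torsionBy ℤ (E⁄Qbar).Point (3 : ℕ)),
      IsGaloisStable ℚ N ∧ N ≠ ⊥ ∧ N ≠ ⊤ := by
    by_contra hcon
    push Not at hcon
    apply hred
    refine ⟨hnt, fun N hN => ?_⟩
    by_cases hb : N = ⊥
    · exact Or.inl hb
    · exact Or.inr (hcon N hN hb)
  obtain ⟨N, hN, hbot, htop⟩ := this
  obtain ⟨v, hv, hv0, hspan⟩ := exists_line (p := 3) (lt_of_le_of_lt hcard (by norm_num)) N hbot htop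
  obtain ⟨P, hP⟩ := v
  have hP3 : (3 : ℕ) • P = 0 := by
    have := (Submodule.mem_torsionBy_iff _ _).mp hP
    rwa [natCast_zsmul] at this
  rcases P with _ | ⟨x, y, h⟩
  · exact absurd rfl hv0
  have hfix : ∀ σ : Qbar ≃ₐ[ℚ] Qbar, σ x = x := by
    intro σ
    obtain ⟨c, hc⟩ := hspan _ (hN σ _ hv)
    have hc' : σ • (some x y h : (E⁄Qbar).Point) = c.val • (some x y h : (E⁄Qbar).Point) := by
      have := congrArg Subtype.val hc
      rw [torsion_smul] at this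
      exact this
    obtain ⟨h', hσ⟩ := smul_some E σ h
    rw [hσ] at hc'
    have hc3 : c.val < 3 := ZMod.val_lt c
    interval_cases hcv : c.val
    · rw [zero_nsmul] at hc'
      exact absurd hc' (some_ne_zero h')
    · rw [one_nsmul, some.injEq] at hc'
      exact hc'.1
    · have h2 : (2 : ℕ) • (some x y h : (E⁄Qbar).Point) = - some x y h := by
        rw [eq_neg_iff_add_eq_zero, ← hP3]; exact (succ_nsmul _ 2).symm
      rw [h2, neg_some, some.injEq] at hc'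
      exact hc'.1
  obtain ⟨r, hr⟩ := exists_rat_of_fixed x hfix
  refine ⟨r, ?_⟩
  have h3 := psiThree_of_three_nsmul hP3
  have : algebraMap ℚ Qbar (psiThree E r) = psiThree (E⁄Qbar) x := by
    rw [hr]
    simp only [psiThree, map_add, map_mul, map_pow, bc_b₂,
      bc_b₄, bc_b₆, bc_b₈, map_ofNat]
  rw [h3] at this
  exact (map_eq_zero _).mp this

/-- A reducible mod 5 representation gives rational elementary symmetric functions of
`x(P), x(2P)`. -/
theorem exists_x_five (hΔ : E.Δ ≠ 0)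
    (hred : ¬ GaloisRepIsIrreducible (K := Qbar) ℚ E 5) :
    ∃ r g : ℚ, g ≠ 0 ∧ psiTwoSq E r = (E.b₂ + 12 * r) * g ∧
      psiThree E r = 5 * g ^ 2 + (6 * r ^ 2 + E.b₂ * r + E.b₄) * g := by
  have : Fact (Nat.Prime 5) := ⟨Nat.prime_five⟩
  have hΔ' : (E⁄Qbar).Δ ≠ 0 := by
    rw [show (E⁄Qbar).Δ = algebraMap ℚ Qbar E.Δ from E.map_Δ _]
    exact (map_ne_zero _).mpr hΔ
  obtain ⟨hfin, hcard⟩ := torsion_finite E (p := 5) (B := 49)
    (fun T hT => five_torsion_card (by norm_num) (by norm_num) T hT)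
  have hnt : Nontrivial (Submodule.torsionBy ℤ (E⁄Qbar).Point (5 : ℕ)) := by
    obtain ⟨P, hP0, hP⟩ := exists_five_torsion (W := (E⁄Qbar)) (by norm_num) (by norm_num) hΔ'
    refine ⟨⟨⟨P, ?_⟩, 0, ?_⟩⟩
    · rw [Submodule.mem_torsionBy_iff, natCast_zsmul]
      exact hP
    · intro h
      exact hP0 (congrArg Subtype.val h)
  have : ∃ N : Submodule (ZMod 5) (Submodule.torsionBy ℤ (E⁄Qbar).Point (5 : ℕ)),
      IsGaloisStable ℚ N ∧ N ≠ ⊥ ∧ N ≠ ⊤ := by
    by_contra hcon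
    push Not at hcon
    apply hred
    refine ⟨hnt, fun N hN => ?_⟩
    by_cases hb : N = ⊥
    · exact Or.inl hb
    · exact Or.inr (hcon N hN hb)
  obtain ⟨N, hN, hbot, htop⟩ := this
  obtain ⟨v, hv, hv0, hspan⟩ := exists_line (p := 5) (lt_of_le_of_lt hcard (by norm_num)) N hbot htop
  obtain ⟨P, hP⟩ := v
  have hP5 : (5 : ℕ) • P = 0 := by
    have := (Submodule.mem_torsionBy_iff _ _).mp hP
    rwa [natCast_zsmul] at this
  rcases P with _ | ⟨x, y, h⟩
  · exact absurd rfl hv0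
  obtain ⟨x₂, y₂, h₂, h2P, hne, h12, h21⟩ := order_five hP5
  set P : (E⁄Qbar).Point := some x y h with hPdef
  have hkey : ∀ σ : Qbar ≃ₐ[ℚ] Qbar, (σ x = x ∧ σ x₂ = x₂) ∨ (σ x = x₂ ∧ σ x₂ = x) := by
    intro σ
    obtain ⟨c, hc⟩ := hspan _ (hN σ _ hv)
    have hc' : σ • P = c.val • P := by
      have := congrArg Subtype.val hc
      rw [torsion_smul] at this
      exact this
    have hc'' : σ • (some x₂ y₂ h₂ : (E⁄Qbar).Point) = c.val • (some x₂ y₂ h₂ : (E⁄Qbar).Point) := by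
      have hadd : σ • (P + P) = σ • P + σ • P := (Point.map σ.toAlgHom).map_add P P
      rw [← h2P, two_nsmul, hadd, hc', nsmul_add]
    obtain ⟨h', hσ⟩ := smul_some E σ h
    obtain ⟨h₂', hσ₂⟩ := smul_some E σ h₂
    have h4P : (4 : ℕ) • P = - P := by
      rw [eq_neg_iff_add_eq_zero, ← hP5]; exact (succ_nsmul _ 4).symm
    have h3P : (3 : ℕ) • P = - some x₂ y₂ h₂ := by
      rw [← h2P, eq_neg_iff_add_eq_zero, ← hP5, ← add_nsmul]
    rw [hσ] at hc'
    rw [hσ₂, ← h2P, ← mul_nsmul'] at hc''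
    have hc3 : c.val < 5 := ZMod.val_lt c
    interval_cases hcv : c.val
    · rw [zero_nsmul] at hc'
      exact absurd hc' (some_ne_zero h')
    · rw [one_nsmul, some.injEq] at hc'
      rw [one_mul, h2P, some.injEq] at hc''
      exact Or.inl ⟨hc'.1, hc''.1⟩
    · rw [h2P, some.injEq] at hc'
      norm_num at hc''
      rw [h4P, neg_some, some.injEq] at hc''
      exact Or.inr ⟨hc'.1, hc''.1⟩
    · rw [h3P, neg_some, some.injEq] at hc'
      norm_num at hc''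
      have h6P : (6 : ℕ) • P = P := by
        rw [succ_nsmul, hP5, zero_add]
      rw [h6P, hPdef, some.injEq] at hc''
      exact Or.inr ⟨hc'.1, hc''.1⟩
    · rw [h4P, neg_some, some.injEq] at hc'
      norm_num at hc''
      have h8P : (8 : ℕ) • P = - some x₂ y₂ h₂ := by
        rw [← h3P, show (8 : ℕ) = 5 + 3 by norm_num, add_nsmul, hP5, zero_add]
      rw [h8P, neg_some, some.injEq] at hc''
      exact Or.inl ⟨hc'.1, hc''.1⟩
  obtain ⟨r, hr⟩ := exists_rat_of_fixed ((x + x₂) / 2) (by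
    intro σ
    rw [map_div₀, map_add, map_ofNat]
    rcases hkey σ with ⟨h1, h2⟩ | ⟨h1, h2⟩ <;> rw [h1, h2]
    rw [add_comm])
  obtain ⟨g, hg⟩ := exists_rat_of_fixed (((x - x₂) / 2) ^ 2) (by
    intro σ
    rw [map_pow, map_div₀, map_sub, map_ofNat]
    rcases hkey σ with ⟨h1, h2⟩ | ⟨h1, h2⟩ <;> rw [h1, h2]
    ring)
  obtain ⟨e1, e2⟩ := mid_relations (W := (E⁄Qbar)) (by norm_num) hne
    (show x = (x + x₂) / 2 + (x - x₂) / 2 by ring) (show x₂ = (x + x₂) / 2 - (x - x₂) / 2 by ring)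
    h12 h21
  rw [hg, hr] at e1 e2
  refine ⟨r, g, ?_, ?_, ?_⟩
  · rintro rfl
    rw [_root_.map_zero] at hg
    have h0 := (pow_eq_zero_iff two_ne_zero).mp hg
    apply hne
    have : x - x₂ = 0 := by linear_combination 2 * h0
    exact sub_eq_zero.mp this
  · apply (algebraMap ℚ Qbar).injective
    simp only [psiTwoSq, map_add, map_mul, map_pow, bc_b₂,
      bc_b₄, bc_b₆, map_ofNat] at e1 ⊢
    exact e1
  · apply (algebraMap ℚ Qbar).injective
    simp only [psiThree, map_add, map_mul, map_pow, bc_b₂,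
      bc_b₄, bc_b₆, bc_b₈, map_ofNat] at e2 ⊢
    exact e2

end Fermat.Agent.X015
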