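import Fermat.Agent.X015.Points
import Fermat.Prelude.Def_FLTPrelim_GaloisRep

set_option autoImplicit false

/-!
# Counting points of order 3 and 5, existence of such points
-/

namespace Fermat.Agent.X015

open WeierstrassCurve WeierstrassCurve.Affine WeierstrassCurve.Affine.Point Polynomial

section Field

variable {F : Type*} [Field F] {W : Affine F} [DecidableEq F]

/-- A set of points whose affine points have abscissa in a finite set `S` is finite,
with at most `2 |S| + 1` elements. -/
lemma card_le_of_x_mem (S : Finset F) (T : Set W.Point)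
    (hT : ∀ (x y : F) (h : W.Nonsingular x y), some x y h ∈ T → x ∈ S) :
    T.Finite ∧ T.ncard ≤ 2 * S.card + 1 := by
  classical
  let f : F → Finset W.Point := fun x =>
    if h : ∃ y, W.Nonsingular x y then
      {some x h.choose h.choose_spec, -some x h.choose h.choose_spec} else ∅
  have hf : ∀ x, (f x).card ≤ 2 := by
    intro x
    by_cases h : ∃ y, W.Nonsingular x y
    · simp only [f, dif_pos h]; exact Finset.card_le_two
    · simp only [f, dif_neg h]; simp
  have hmem : ∀ (x y : F) (h : W.Nonsingular x y), some x y h ∈ f x := by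
    intro x y h
    have hex : ∃ y, W.Nonsingular x y := ⟨y, h⟩
    simp only [f, dif_pos hex, Finset.mem_insert, Finset.mem_singleton]
    exact (X_eq_iff (h₁ := h) (h₂ := hex.choose_spec)).mp rfl
  have hsub : T ⊆ ↑(insert (0 : W.Point) (S.biUnion f)) := by
    intro P hP
    rcases P with _ | ⟨x, y, h⟩
    · simp [zero_def]
    · rw [Finset.coe_insert]
      right
      rw [Finset.mem_coe, Finset.mem_biUnion]
      exact ⟨x, hT x y h hP, hmem x y h⟩
  have hcard : (insert (0 : W.Point) (S.biUnion f)).card ≤ 2 * S.card + 1 := by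
    refine (Finset.card_insert_le _ _).trans ?_
    have := Finset.card_biUnion_le_card_mul S f 2 (fun x _ => hf x)
    omega
  have hfin : (↑(insert (0 : W.Point) (S.biUnion f)) : Set W.Point).Finite := Finset.finite_toSet _
  refine ⟨hfin.subset hsub, ?_⟩
  calc T.ncard ≤ (↑(insert (0 : W.Point) (S.biUnion f)) : Set W.Point).ncard :=
        Set.ncard_le_ncard hsub hfin
    _ = (insert (0 : W.Point) (S.biUnion f)).card := Set.ncard_coe_finset _
    _ ≤ _ := hcard

/-- the 3-division polynomial as a polynomial. -/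
noncomputable def psiThreePoly (W : Affine F) : F[X] :=
  C 3 * X ^ 4 + C W.b₂ * X ^ 3 + C (3 * W.b₄) * X ^ 2 + C (3 * W.b₆) * X + C W.b₈

omit [DecidableEq F] in
lemma eval_psiThreePoly (x : F) : (psiThreePoly W).eval x = psiThree W x := by
  simp only [psiThreePoly, psiThree, eval_add, eval_mul, eval_C, eval_pow, eval_X]

omit [DecidableEq F] in
lemma natDegree_psiThreePoly (h3 : (3 : F) ≠ 0) : (psiThreePoly W).natDegree = 4 := by
  unfold psiThreePoly
  compute_degree!

/-- The `x`-coordinates of points of order 3. -/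
lemma three_torsion_card (h3 : (3 : F) ≠ 0) (T : Set W.Point)
    (hT : ∀ P ∈ T, (3 : ℕ) • P = 0) : T.Finite ∧ T.ncard ≤ 9 := by
  have h := card_le_of_x_mem (psiThreePoly W).roots.toFinset T (by
    intro x y h hP
    have hne : psiThreePoly W ≠ 0 := by
      intro h0
      have := natDegree_psiThreePoly (W := W) h3
      rw [h0] at this; simp at this
    rw [Multiset.mem_toFinset, mem_roots hne, IsRoot, eval_psiThreePoly]
    exact psiThree_of_three_nsmul (hT _ hP))
  refine ⟨h.1, h.2.trans ?_⟩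
  have h1 : (psiThreePoly W).roots.toFinset.card ≤ 4 := by
    rw [← natDegree_psiThreePoly (W := W) h3]
    exact (Multiset.toFinset_card_le _).trans (card_roots' _)
  omega

/-- The polynomial whose roots are the midpoints `(x(P) + x(2P))/2` for `P` of order 5. -/
noncomputable def midPoly (W : Affine F) : F[X] :=
  C 64 * X ^ 6 + C (32 * W.b₂) * X ^ 5 + C (160 * W.b₄) * X ^ 4 + C (320 * W.b₆) * X ^ 3
    + C (320 * W.b₈) * X ^ 2 + C (32 * (W.b₂ * W.b₈ - W.b₄ * W.b₆)) * X
    + C (W.b₂ ^ 2 * W.b₈ - 5 * W.b₆ ^ 2 - W.b₂ * W.b₄ * W.b₆)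

omit [DecidableEq F] in
lemma eval_midPoly (r : F) : (midPoly W).eval r = (W.b₂ + 12 * r) ^ 2 * psiThree W r
    - 5 * psiTwoSq W r ^ 2 - (6 * r ^ 2 + W.b₂ * r + W.b₄) * (W.b₂ + 12 * r) * psiTwoSq W r := by
  simp only [midPoly, psiThree, psiTwoSq, eval_add, eval_mul, eval_C, eval_pow, eval_X]
  linear_combination (44 * r ^ 2 + 2 * W.b₂ * r) * W.b_relation

omit [DecidableEq F] in
lemma natDegree_midPoly (h2 : (2 : F) ≠ 0) : (midPoly W).natDegree = 6 := by
  have h64 : (64 : F) ≠ 0 := by
    have : (64 : F) = 2 ^ 6 := by norm_num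
    rw [this]; exact pow_ne_zero _ h2
  unfold midPoly
  compute_degree!

omit [DecidableEq F] in
/-- The relations satisfied by midpoint `r` and `g = ((x₁ - x₂)/2)²`. -/
lemma mid_relations {x₁ x₂ r s : F} (h2 : (2 : F) ≠ 0) (hx : x₁ ≠ x₂)
    (hr : x₁ = r + s) (hs : x₂ = r - s)
    (h12 : x₂ * psiTwoSq W x₁ = dupNum W x₁) (h21 : x₁ * psiTwoSq W x₂ = dupNum W x₂) :
    psiTwoSq W r = (W.b₂ + 12 * r) * s ^ 2 ∧
      psiThree W r = 5 * (s ^ 2) ^ 2 + (6 * r ^ 2 + W.b₂ * r + W.b₄) * s ^ 2 := by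
  subst hr hs
  have hs0 : s ≠ 0 := by
    rintro rfl
    apply hx; ring
  constructor
  · apply mul_left_cancel₀ (mul_ne_zero h2 hs0)
    simp only [psiTwoSq, dupNum] at *
    linear_combination h12 - h21
  · apply mul_left_cancel₀ h2
    simp only [psiTwoSq, dupNum, psiThree] at *
    linear_combination h12 + h21

omit [DecidableEq F] in
/-- Converse of `mid_relations`. -/
lemma mid_relations_conv {r s : F}
    (h1 : psiTwoSq W r = (W.b₂ + 12 * r) * s ^ 2)
    (h2 : psiThree W r = 5 * (s ^ 2) ^ 2 + (6 * r ^ 2 + W.b₂ * r + W.b₄) * s ^ 2) :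
    (r - s) * psiTwoSq W (r + s) = dupNum W (r + s) := by
  simp only [psiTwoSq, dupNum, psiThree] at *
  linear_combination h2 + s * h1

omit [DecidableEq F] in
lemma midPoly_root {r g : F} (h1 : psiTwoSq W r = (W.b₂ + 12 * r) * g)
    (h2 : psiThree W r = 5 * g ^ 2 + (6 * r ^ 2 + W.b₂ * r + W.b₄) * g) :
    (midPoly W).eval r = 0 := by
  rw [eval_midPoly, h1, h2]; ring

/-- Given `r`, the possible `x`-coordinates. -/
noncomputable def xPoly (W : Affine F) (r : F) : F[X] :=
  (C 5 * X ^ 4 + C (6 * r ^ 2 + W.b₂ * r + W.b₄) * X ^ 2 - C (psiThree W r))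

omit [DecidableEq F] in
lemma natDegree_xPoly (h5 : (5 : F) ≠ 0) (r : F) : (xPoly W r).natDegree = 4 := by
  unfold xPoly
  compute_degree!

lemma five_torsion_card (h2 : (2 : F) ≠ 0) (h5 : (5 : F) ≠ 0) (T : Set W.Point)
    (hT : ∀ P ∈ T, (5 : ℕ) • P = 0) : T.Finite ∧ T.ncard ≤ 49 := by
  classical
  let S : Finset F := (midPoly W).roots.toFinset.biUnion
    (fun r => (xPoly W r).roots.toFinset.image (fun s => r + s))
  have h := card_le_of_x_mem S T (by
    intro x y h hP
    obtain ⟨x₂, y₂, h₂, -, hne, h12, h21⟩ := order_five (hT _ hP)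
    have hr : x = (x + x₂) / 2 + (x - x₂) / 2 := by field_simp; ring
    have hs : x₂ = (x + x₂) / 2 - (x - x₂) / 2 := by field_simp; ring
    obtain ⟨e1, e2⟩ := mid_relations h2 hne hr hs h12 h21
    have hne : midPoly W ≠ 0 := by
      intro h0
      have := natDegree_midPoly (W := W) h2
      rw [h0] at this; simp at this
    have hne' : xPoly W ((x + x₂) / 2) ≠ 0 := by
      intro h0
      have := natDegree_xPoly (W := W) h5 ((x + x₂) / 2)
      rw [h0] at this; simp at this
    simp only [S, Finset.mem_biUnion, Finset.mem_image, Multiset.mem_toFinset]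
    refine ⟨(x + x₂) / 2, ?_, (x - x₂) / 2, ?_, hr.symm⟩
    · rw [mem_roots hne, IsRoot]
      exact midPoly_root e1 e2
    · rw [mem_roots hne', IsRoot]
      simp only [xPoly, eval_sub, eval_add, eval_mul, eval_C, eval_pow, eval_X]
      rw [e2]; ring)
  refine ⟨h.1, h.2.trans ?_⟩
  have h1 : (midPoly W).roots.toFinset.card ≤ 6 := by
    rw [← natDegree_midPoly (W := W) h2]
    exact (Multiset.toFinset_card_le _).trans (card_roots' _)
  have h2' : S.card ≤ (midPoly W).roots.toFinset.card * 4 := by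
    apply Finset.card_biUnion_le_card_mul
    intro r _
    refine Finset.card_image_le.trans ?_
    rw [← natDegree_xPoly (W := W) h5 r]
    exact (Multiset.toFinset_card_le _).trans (card_roots' _)
  omega

end Field

section AlgClosed

variable {K : Type*} [Field K] [IsAlgClosed K] {W : Affine K} [DecidableEq K]

omit [IsAlgClosed K] [DecidableEq K] in
lemma degree_ne_zero_of {p : K[X]} {n : ℕ} (h : p.natDegree = n + 1) : p.degree ≠ 0 := by
  intro h0
  have := natDegree_eq_of_degree_eq_some (n := 0) (by simpa using h0)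
  omega

omit [DecidableEq K] in
lemma exists_point (hΔ : W.Δ ≠ 0) (x : K) : ∃ y, W.Nonsingular x y := by
  let p : K[X] := X ^ 2 + C (W.a₁ * x + W.a₃) * X - C (x ^ 3 + W.a₂ * x ^ 2 + W.a₄ * x + W.a₆)
  have hp : p.natDegree = 2 := by
    simp only [p]; compute_degree!
  have hp' : p.degree ≠ 0 := degree_ne_zero_of hp
  obtain ⟨y, hy⟩ := IsAlgClosed.exists_root p hp'
  refine ⟨y, (equation_iff_nonsingular_of_Δ_ne_zero hΔ).mp ?_⟩
  rw [equation_iff]
  simp only [IsRoot, p, eval_sub, eval_add, eval_mul, eval_C, eval_pow, eval_X] at hy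
  linear_combination hy

lemma exists_three_torsion (h3 : (3 : K) ≠ 0) (hΔ : W.Δ ≠ 0) :
    ∃ P : W.Point, P ≠ 0 ∧ (3 : ℕ) • P = 0 := by
  have hp' : (psiThreePoly W).degree ≠ 0 := degree_ne_zero_of (natDegree_psiThreePoly h3)
  obtain ⟨x, hx⟩ := IsAlgClosed.exists_root _ hp'
  rw [IsRoot, eval_psiThreePoly] at hx
  obtain ⟨y, hy⟩ := exists_point hΔ x
  exact ⟨some x y hy, some_ne_zero hy, three_nsmul_of_psiThree hΔ hx⟩

lemma exists_five_torsion (h2 : (2 : K) ≠ 0) (h5 : (5 : K) ≠ 0) (hΔ : W.Δ ≠ 0) :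
    ∃ P : W.Point, P ≠ 0 ∧ (5 : ℕ) • P = 0 := by
  have hp' : (midPoly W).degree ≠ 0 := degree_ne_zero_of (natDegree_midPoly h2)
  obtain ⟨r, hr⟩ := IsAlgClosed.exists_root _ hp'
  rw [IsRoot, eval_midPoly] at hr
  -- find `s`
  obtain ⟨s, e1, e2⟩ : ∃ s, psiTwoSq W r = (W.b₂ + 12 * r) * s ^ 2 ∧
      psiThree W r = 5 * (s ^ 2) ^ 2 + (6 * r ^ 2 + W.b₂ * r + W.b₄) * s ^ 2 := by
    by_cases hb : W.b₂ + 12 * r = 0
    · have hD : psiTwoSq W r = 0 := by
        rw [hb] at hr
        have : (5 : K) * psiTwoSq W r ^ 2 = 0 := by linear_combination -hr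
        rcases mul_eq_zero.mp this with h | h
        · exact absurd h h5
        · exact (pow_eq_zero_iff two_ne_zero).mp h
      have hx' : (xPoly W r).degree ≠ 0 := degree_ne_zero_of (natDegree_xPoly h5 r)
      obtain ⟨s, hs⟩ := IsAlgClosed.exists_root _ hx'
      refine ⟨s, by rw [hb, hD, zero_mul], ?_⟩
      simp only [IsRoot, xPoly, eval_sub, eval_add, eval_mul, eval_C, eval_pow, eval_X] at hs
      linear_combination -hs
    · obtain ⟨s, hs⟩ := IsAlgClosed.exists_pow_nat_eq (psiTwoSq W r / (W.b₂ + 12 * r)) two_pos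
      have hD : psiTwoSq W r = (W.b₂ + 12 * r) * s ^ 2 := by
        rw [hs]; field_simp
      refine ⟨s, hD, ?_⟩
      rw [hD] at hr
      apply mul_left_cancel₀ (pow_ne_zero 2 hb)
      linear_combination hr
  have hs0 : s ≠ 0 := by
    rintro rfl
    apply hΔ
    have h1 : psiTwoSq W r = 0 := by rw [e1]; ring
    have h2 : dupNum W r = 0 := by
      have : dupNum W r = r * psiTwoSq W r - psiThree W r := by rw [psiThree_eq]; ring
      rw [this, e2, h1]; ring
    rw [delta_eq r, h1, h2]; ring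
  have hne : r + s ≠ r - s := by
    intro h
    have : 2 * s = 0 := by linear_combination h
    rcases mul_eq_zero.mp this with h | h
    · exact h2 h
    · exact hs0 h
  have h12 := mid_relations_conv e1 e2
  have h21 := mid_relations_conv (s := -s) (by rw [neg_sq]; exact e1) (by rw [neg_sq]; exact e2)
  rw [sub_neg_eq_add, ← sub_eq_add_neg] at h21
  obtain ⟨y, hy⟩ := exists_point hΔ (r + s)
  exact ⟨some _ y hy, some_ne_zero hy, five_nsmul_of hΔ hne h12 h21⟩

end AlgClosed

end Fermat.Agent.X015
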