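import Mathlib

set_option autoImplicit false

/-!
# Rational points on `X₀(15) : Y² = θ (θ - 4) (4 θ + 9)`
-/

namespace Fermat.Agent.X015

/-- odd squares are `1` modulo `8`. -/
lemma odd_sq_mod {n : ℤ} (h : n % 2 = 1) : n ^ 2 % 8 = 1 := by
  have h8 : n % 8 = 1 ∨ n % 8 = 3 ∨ n % 8 = 5 ∨ n % 8 = 7 := by omega
  rcases h8 with h | h | h | h <;> simp [pow_two, Int.mul_emod, h]

lemma sq_mod_three {n : ℤ} : n ^ 2 % 3 = 0 ∨ n ^ 2 % 3 = 1 := by
  have h3 : n % 3 = 0 ∨ n % 3 = 1 ∨ n % 3 = 2 := by omega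
  rcases h3 with h | h | h <;> simp [pow_two, Int.mul_emod, h]

lemma three_dvd_of_sum_sq {a d : ℤ} (h : (3 : ℤ) ∣ a ^ 2 + d ^ 2) : (3 : ℤ) ∣ a ∧ (3 : ℤ) ∣ d := by
  have ha : a % 3 = 0 ∨ a % 3 = 1 ∨ a % 3 = 2 := by omega
  have hd : d % 3 = 0 ∨ d % 3 = 1 ∨ d % 3 = 2 := by omega
  have h' : (a ^ 2 + d ^ 2) % 3 = 0 := Int.emod_eq_zero_of_dvd h
  rcases ha with ha | ha | ha <;> rcases hd with hd | hd | hd <;>
    simp [pow_two, Int.add_emod, Int.mul_emod, ha, hd] at h' ⊢ <;> omega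

lemma isCoprime_two_of_odd {n : ℤ} (h : n % 2 = 1) : IsCoprime (2 : ℤ) n :=
  ⟨-(n / 2), 1, by omega⟩

lemma pos_dvd_fifteen {k : ℤ} (h : k ∣ 15) (hk : 0 < k) : k = 1 ∨ k = 3 ∨ k = 5 ∨ k = 15 := by
  have hle : k ≤ 15 := Int.le_of_dvd (by norm_num) h
  interval_cases k <;> revert h <;> decide

/-- The main descent step. -/
lemma descent_step {M N M' N' : ℤ} (hMN : IsCoprime M N) (hMN' : IsCoprime M' N')
    (hM : M % 2 = 1) (hN : N % 2 = 0) (hM' : M' % 2 = 1)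
    (h1 : M' * N' = 4 * (M * N)) (h2 : M' ^ 2 - N' ^ 2 = M ^ 2 - N ^ 2) (hN0 : N ≠ 0) :
    ∃ a d b c : ℤ, IsCoprime a d ∧ a % 2 = 1 ∧ d ≠ 0 ∧ d.natAbs < (2 * M * N).natAbs ∧
      a ^ 2 + d ^ 2 = c ^ 2 ∧ a ^ 2 + 16 * d ^ 2 = b ^ 2 := by
  have hM0 : M ≠ 0 := by rintro rfl; simp at hM
  -- `N' = 4 N''`
  have h4 : (4 : ℤ) ∣ N' := by
    have hco : IsCoprime (4 : ℤ) M' := by
      have h22 := (isCoprime_two_of_odd hM').pow_left (m := 2)
      norm_num at h22
      exact h22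
    exact hco.dvd_of_dvd_mul_left ⟨M * N, h1⟩
  obtain ⟨N2, rfl⟩ := h4
  have h1' : M' * N2 = M * N := by linarith
  have hMN2 : IsCoprime M' N2 := hMN'.of_mul_right_right
  -- four-number lemma
  obtain ⟨α, hα0, γ, β, hMα, hM'α, hβγ⟩ :
      ∃ α : ℤ, α ≠ 0 ∧ ∃ γ β : ℤ, M = α * γ ∧ M' = α * β ∧ IsCoprime β γ := by
    have hgpos : (Int.gcd M M' : ℤ) ≠ 0 := by
      intro h
      have := Int.gcd_dvd_left M M'
      rw [h] at this
      exact hM0 (zero_dvd_iff.mp this)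
    obtain ⟨γ, hγ⟩ := Int.gcd_dvd_left M M'
    obtain ⟨β, hβ⟩ := Int.gcd_dvd_right M M'
    refine ⟨Int.gcd M M', hgpos, γ, β, hγ, hβ, ?_⟩
    refine ⟨Int.gcdB M M', Int.gcdA M M', ?_⟩
    have hbez := Int.gcd_eq_gcd_ab M M'
    apply mul_left_cancel₀ hgpos
    calc (Int.gcd M M' : ℤ) * (Int.gcdB M M' * β + Int.gcdA M M' * γ)
        = (Int.gcd M M' * γ) * Int.gcdA M M' + (Int.gcd M M' * β) * Int.gcdB M M' := by ring
      _ = M * Int.gcdA M M' + M' * Int.gcdB M M' := by rw [← hγ, ← hβ]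
      _ = Int.gcd M M' * 1 := by rw [← hbez, mul_one]
  subst hMα hM'α
  have hγ0 : γ ≠ 0 := right_ne_zero_of_mul hM0
  have hβ0 : β ≠ 0 := by rintro rfl; simp at hM'
  have h1'' : β * N2 = γ * N := by
    apply mul_left_cancel₀ hα0
    linear_combination h1'
  obtain ⟨δ, rfl⟩ : γ ∣ N2 := hβγ.symm.dvd_of_dvd_mul_left ⟨N, h1''⟩
  obtain rfl : N = β * δ := by
    apply mul_left_cancel₀ hγ0
    linear_combination -h1''
  have hδ0 : δ ≠ 0 := right_ne_zero_of_mul hN0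
  have hαδ : IsCoprime α δ := (hMN.of_mul_left_left).of_mul_right_right
  have hodd : ∀ {x y : ℤ}, (x * y) % 2 = 1 → x % 2 = 1 ∧ y % 2 = 1 := by
    intro x y h
    have hx := Int.emod_two_eq_zero_or_one x
    have hy := Int.emod_two_eq_zero_or_one y
    rcases hx with hx | hx <;> rcases hy with hy | hy <;> simp [Int.mul_emod, hx, hy] at h ⊢
  obtain ⟨hαo, hγo⟩ := hodd hM
  obtain ⟨-, hβo⟩ := hodd hM'
  have h3 : α ^ 2 * (β ^ 2 - γ ^ 2) = δ ^ 2 * (16 * γ ^ 2 - β ^ 2) := by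
    linear_combination h2
  have hcop : IsCoprime (δ ^ 2) (α ^ 2) := (hαδ.symm).pow
  obtain ⟨k, hk⟩ : δ ^ 2 ∣ β ^ 2 - γ ^ 2 := hcop.dvd_of_dvd_mul_left ⟨_, h3⟩
  have hk' : 16 * γ ^ 2 - β ^ 2 = α ^ 2 * k := by
    apply mul_left_cancel₀ (pow_ne_zero 2 hδ0)
    linear_combination α ^ 2 * hk - h3
  have e1 : 15 * γ ^ 2 = k * (α ^ 2 + δ ^ 2) := by linear_combination hk + hk'
  have e2 : 15 * β ^ 2 = k * (16 * δ ^ 2 + α ^ 2) := by linear_combination 16 * hk + hk'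
  have hk15 : k ∣ 15 := by
    obtain ⟨u, v, huv⟩ := (hβγ.pow (m := 2) (n := 2))
    refine ⟨u * (16 * δ ^ 2 + α ^ 2) + v * (α ^ 2 + δ ^ 2), ?_⟩
    linear_combination (-15) * huv + u * e2 + v * e1
  have hkpos : 0 < k := by
    have hs : 0 < α ^ 2 + δ ^ 2 := by positivity
    have hg : 0 < γ ^ 2 := by positivity
    by_contra hneg
    push Not at hneg
    nlinarith
  have hα8 := odd_sq_mod hαo
  have hβ8 := odd_sq_mod hβo
  rcases pos_dvd_fifteen hk15 hkpos with rfl | rfl | rfl | rfl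
  · exfalso
    have := three_dvd_of_sum_sq (a := α) (d := δ) ⟨5 * γ ^ 2, by linear_combination -e1⟩
    obtain ⟨u, v, huv⟩ := hαδ
    have h31 : (3 : ℤ) ∣ 1 := by
      rw [← huv]
      exact dvd_add (this.1.mul_left u) (this.2.mul_left v)
    omega
  · exfalso
    have h5 : 5 * β ^ 2 = 16 * δ ^ 2 + α ^ 2 := by linarith
    omega
  · exfalso
    have := three_dvd_of_sum_sq (a := α) (d := δ) ⟨γ ^ 2, by linarith⟩
    obtain ⟨u, v, huv⟩ := hαδ
    have h31 : (3 : ℤ) ∣ 1 := by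
      rw [← huv]
      exact dvd_add (this.1.mul_left u) (this.2.mul_left v)
    omega
  · refine ⟨α, δ, β, γ, hαδ, hαo, hδ0, ?_, by linarith, by linarith⟩
    have hrw : (2 * (α * γ) * (β * δ)).natAbs = 2 * (α * γ * β).natAbs * δ.natAbs := by
      rw [show 2 * (α * γ) * (β * δ) = 2 * (α * γ * β) * δ by ring]
      simp [Int.natAbs_mul]
    rw [hrw]
    have hpos : 0 < (α * γ * β).natAbs := Int.natAbs_pos.mpr (mul_ne_zero (mul_ne_zero hα0 hγ0) hβ0)
    have hδpos : 0 < δ.natAbs := Int.natAbs_pos.mpr hδ0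
    nlinarith

lemma isCoprime_iff_gcd' {a b : ℤ} : IsCoprime a b ↔ Int.gcd a b = 1 :=
  Int.isCoprime_iff_gcd_eq_one

/-- If `a` is odd and coprime to `d` and both `a² + d²`, `a² + 16 d²` are squares, then `d = 0`. -/
lemma core_odd (n : ℕ) : ∀ {a d b c : ℤ}, d.natAbs = n → IsCoprime a d → a % 2 = 1 →
    a ^ 2 + d ^ 2 = c ^ 2 → a ^ 2 + 16 * d ^ 2 = b ^ 2 → d = 0 := by
  induction n using Nat.strong_induction_on with
  | _ n ih =>
    intro a d b c hn had ha hc hb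
    by_contra hd0
    have ha0 : a ≠ 0 := by rintro rfl; simp at ha
    -- wlog `c, b > 0`
    have hcpos : 0 < |c| := by
      rw [abs_pos]; rintro rfl
      have : 0 < a ^ 2 + d ^ 2 := by positivity
      simp [hc] at this
    have hbpos : 0 < |b| := by
      rw [abs_pos]; rintro rfl
      have : 0 < a ^ 2 + 16 * d ^ 2 := by positivity
      simp [hb] at this
    have hPT1 : PythagoreanTriple a d |c| := by
      unfold PythagoreanTriple
      rw [abs_mul_abs_self]; linarith [hc, sq a, sq d, sq c]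
    have hPT2 : PythagoreanTriple a (4 * d) |b| := by
      unfold PythagoreanTriple
      rw [abs_mul_abs_self]; linarith [hb, sq a, sq d, sq b, mul_mul_mul_comm 4 d 4 d]
    have had4 : IsCoprime a (4 * d) := by
      have h22 := (isCoprime_two_of_odd ha).pow_left (m := 2)
      norm_num at h22
      exact h22.symm.mul_right had
    obtain ⟨m, k, hm1, hm2, -, hm4, hm5, -⟩ :=
      hPT1.coprime_classification' (isCoprime_iff_gcd'.mp had) ha hcpos
    obtain ⟨m', k', hm1', hm2', -, hm4', hm5', -⟩ :=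
      hPT2.coprime_classification' (isCoprime_iff_gcd'.mp had4) ha hbpos
    rw [← isCoprime_iff_gcd'] at hm4 hm4'
    have hprod : m' * k' = 4 * (m * k) := by linarith
    have hdiff : m' ^ 2 - k' ^ 2 = m ^ 2 - k ^ 2 := by linarith
    have hd : d = 2 * m * k := hm2
    have hmk0 : m ≠ 0 ∧ k ≠ 0 := by
      constructor <;> rintro rfl <;> simp at hd <;> exact hd0 hd
    have key : ∃ a d b c : ℤ, IsCoprime a d ∧ a % 2 = 1 ∧ d ≠ 0 ∧ d.natAbs < n ∧
      a ^ 2 + d ^ 2 = c ^ 2 ∧ a ^ 2 + 16 * d ^ 2 = b ^ 2 := by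
      have hpar : ∀ x y : ℤ, (x % 2 = 1 ∧ y % 2 = 0 → (x ^ 2 - y ^ 2) % 4 = 1) ∧
          (x % 2 = 0 ∧ y % 2 = 1 → (x ^ 2 - y ^ 2) % 4 = 3) := by
        intro x y
        have hx : x % 4 = 0 ∨ x % 4 = 1 ∨ x % 4 = 2 ∨ x % 4 = 3 := by omega
        have hy : y % 4 = 0 ∨ y % 4 = 1 ∨ y % 4 = 2 ∨ y % 4 = 3 := by omega
        rcases hx with hx | hx | hx | hx <;> rcases hy with hy | hy | hy | hy <;>
          simp [pow_two, Int.sub_emod, Int.mul_emod, hx, hy] <;> omega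
      rcases hm5 with ⟨h0, h1⟩ | ⟨h1, h0⟩
      · -- m even, k odd
        rcases hm5' with ⟨h0', h1'⟩ | ⟨h1', h0'⟩
        · have := descent_step (M := k) (N := m) (M' := k') (N' := m') hm4.symm hm4'.symm h1 h0 h1'
            (by linarith) (by linarith) hmk0.1
          rw [show 2 * k * m = d by rw [hd]; ring, hn] at this
          exact this
        · exfalso
          have e1 := (hpar m k).2 ⟨h0, h1⟩
          have e2 := (hpar m' k').1 ⟨h1', h0'⟩
          rw [hdiff] at e2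
          omega
      · rcases hm5' with ⟨h0', h1'⟩ | ⟨h1', h0'⟩
        · exfalso
          have e1 := (hpar m k).1 ⟨h1, h0⟩
          have e2 := (hpar m' k').2 ⟨h0', h1'⟩
          rw [hdiff] at e2
          omega
        · have := descent_step (M := m) (N := k) (M' := m') (N' := k') hm4 hm4' h1 h0 h1'
            hprod hdiff hmk0.2
          rw [show 2 * m * k = d by rw [hd], hn] at this
          exact this
    obtain ⟨a₁, d₁, b₁, c₁, h1, h2, h3, h4, h5, h6⟩ := key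
    exact h3 (ih _ h4 rfl h1 h2 h5 h6)

/-- The concordant pair `(1, 16)`, coprime case. -/
lemma core_coprime {a d b c : ℤ} (had : IsCoprime a d)
    (hc : a ^ 2 + d ^ 2 = c ^ 2) (hb : a ^ 2 + 16 * d ^ 2 = b ^ 2) : a = 0 ∨ d = 0 := by
  rcases Int.emod_two_eq_zero_or_one a with ha | ha
  · -- a even
    have hd : d % 2 = 1 := by
      rcases Int.emod_two_eq_zero_or_one d with hd | hd
      · exfalso
        obtain ⟨u, v, huv⟩ := had
        have h2 : (2 : ℤ) ∣ 1 := by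
          rw [← huv]
          exact dvd_add ((Int.dvd_of_emod_eq_zero ha).mul_left u)
            ((Int.dvd_of_emod_eq_zero hd).mul_left v)
        omega
      · exact hd
    obtain ⟨a1, rfl⟩ := Int.dvd_of_emod_eq_zero ha
    have hd8 := odd_sq_mod hd
    have hb2 : b % 2 = 0 := by
      rcases Int.emod_two_eq_zero_or_one b with h | h
      · exact h
      · have := odd_sq_mod h
        have hx : b ^ 2 = 4 * a1 ^ 2 + 16 * d ^ 2 := by linarith
        omega
    obtain ⟨b1, rfl⟩ := Int.dvd_of_emod_eq_zero hb2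
    have hb' : a1 ^ 2 + 4 * d ^ 2 = b1 ^ 2 := by linarith
    have ha1 : a1 % 2 = 0 := by
      rcases Int.emod_two_eq_zero_or_one a1 with h | h
      · exact h
      · exfalso
        have h8 := odd_sq_mod h
        have hb1 : b1 ^ 2 % 8 = 5 := by omega
        have hb1o : b1 % 2 = 1 := by
          rcases Int.emod_two_eq_zero_or_one b1 with h' | h'
          · exfalso
            obtain ⟨b2, rfl⟩ := Int.dvd_of_emod_eq_zero h'
            have : (2 * b2) ^ 2 = 4 * b2 ^ 2 := by ring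
            omega
          · exact h'
        have := odd_sq_mod hb1o
        omega
    obtain ⟨a2, rfl⟩ := Int.dvd_of_emod_eq_zero ha1
    have hb1 : b1 % 2 = 0 := by
      rcases Int.emod_two_eq_zero_or_one b1 with h | h
      · exact h
      · have := odd_sq_mod h
        have hx : b1 ^ 2 = 4 * a2 ^ 2 + 4 * d ^ 2 := by linarith
        omega
    obtain ⟨b2, rfl⟩ := Int.dvd_of_emod_eq_zero hb1
    have hcop : IsCoprime d a2 := by
      have : IsCoprime (2 * (2 * a2)) d := had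
      exact (this.of_mul_left_right.of_mul_left_right).symm
    have := core_odd _ (a := d) (d := a2) (b := c) (c := b2) rfl hcop hd (by linarith) (by linarith)
    left
    rw [this]; ring
  · right
    exact core_odd _ rfl had ha hc hb

/-- A helper to divide by the gcd. -/
lemma exists_coprime_of_ne {a d : ℤ} (h : a ≠ 0 ∨ d ≠ 0) :
    ∃ g a' d' : ℤ, g ≠ 0 ∧ a = g * a' ∧ d = g * d' ∧ IsCoprime a' d' := by
  have hgpos : (Int.gcd a d : ℤ) ≠ 0 := by
    intro h0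
    have h0' : Int.gcd a d = 0 := by exact_mod_cast h0
    rw [Int.gcd_eq_zero_iff] at h0'
    rcases h with h | h
    · exact h h0'.1
    · exact h h0'.2
  obtain ⟨a', ha'⟩ := Int.gcd_dvd_left a d
  obtain ⟨d', hd'⟩ := Int.gcd_dvd_right a d
  refine ⟨Int.gcd a d, a', d', hgpos, ha', hd', Int.gcdA a d, Int.gcdB a d, ?_⟩
  have hbez := Int.gcd_eq_gcd_ab a d
  apply mul_left_cancel₀ hgpos
  calc (Int.gcd a d : ℤ) * (Int.gcdA a d * a' + Int.gcdB a d * d')
      = (Int.gcd a d * a') * Int.gcdA a d + (Int.gcd a d * d') * Int.gcdB a d := by ring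
    _ = a * Int.gcdA a d + d * Int.gcdB a d := by rw [← ha', ← hd']
    _ = Int.gcd a d * 1 := by rw [← hbez, mul_one]

lemma dvd_of_sq_dvd_sq {g c : ℤ} (h : g ^ 2 ∣ c ^ 2) : g ∣ c :=
  (Int.pow_dvd_pow_iff two_ne_zero).mp h

/-- Squarefree part lemma. -/
lemma sqfree_part {A B n : ℤ} (hB : B ≠ 0) (h : A * B = n ^ 2) :
    ∃ e b : ℤ, B = e * b ^ 2 ∧ Squarefree e ∧ e ∣ A ∧ e ∣ B ∧ e ≠ 0 ∧ b ≠ 0 := by
  obtain ⟨e', b', hb', he'⟩ := Nat.sq_mul_squarefree B.natAbs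
  have hBn : B.natAbs ≠ 0 := Int.natAbs_ne_zero.mpr hB
  have hb'0 : b' ≠ 0 := by rintro rfl; simp at hb'; omega
  have he'0 : e' ≠ 0 := by rintro rfl; simp at hb'; omega
  obtain ⟨e, he, hesq, he0⟩ : ∃ e : ℤ, B = e * (b' : ℤ) ^ 2 ∧ Squarefree e ∧ e ≠ 0 := by
    rcases Int.natAbs_eq B with hB' | hB'
    · refine ⟨e', ?_, ?_, by exact_mod_cast he'0⟩
      · rw [hB', ← hb']; push_cast; ring
      · exact Int.squarefree_natCast.mpr he'
    · refine ⟨-e', ?_, ?_, by simpa using he'0⟩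
      · rw [hB', ← hb']; push_cast; ring
      · rw [← Int.squarefree_natAbs]; simpa using he'
  have hb0 : (b' : ℤ) ≠ 0 := by exact_mod_cast hb'0
  obtain ⟨m, hm⟩ : (b' : ℤ) ∣ n := dvd_of_sq_dvd_sq ⟨A * e, by rw [← h, he]; ring⟩
  have hAe : A * e = m ^ 2 := by
    apply mul_left_cancel₀ (pow_ne_zero 2 hb0)
    calc (b' : ℤ) ^ 2 * (A * e) = A * B := by rw [he]; ring
      _ = (b' : ℤ) ^ 2 * m ^ 2 := by rw [h, hm]; ring
  refine ⟨e, b', he, hesq, ?_, ⟨_, he⟩, he0, hb0⟩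
  have hem : e ∣ m := by
    have : e ∣ m ^ 2 := ⟨A, by rw [← hAe]; ring⟩
    exact (hesq.dvd_pow_iff_dvd two_ne_zero).mp this
  obtain ⟨m', rfl⟩ := hem
  refine ⟨m' ^ 2, ?_⟩
  apply mul_left_cancel₀ he0
  linear_combination hAe

end Fermat.Agent.X015
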