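import Fermat.Agent.X015.Dioph

set_option autoImplicit false

namespace Fermat.Agent.X015

/-- The concordant pair `(1, 16)`. -/
lemma core {a d b c : ℤ} (hc : a ^ 2 + d ^ 2 = c ^ 2) (hb : a ^ 2 + 16 * d ^ 2 = b ^ 2) :
    a = 0 ∨ d = 0 := by
  by_cases h0 : a = 0
  · exact Or.inl h0
  obtain ⟨g, a', d', hg, ha', hd', hcop⟩ := exists_coprime_of_ne (d := d) (Or.inl h0)
  obtain ⟨c', hc'⟩ : g ∣ c := dvd_of_sq_dvd_sq ⟨a' ^ 2 + d' ^ 2, by rw [← hc, ha', hd']; ring⟩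
  obtain ⟨b', hb'⟩ : g ∣ b := dvd_of_sq_dvd_sq ⟨a' ^ 2 + 16 * d' ^ 2, by rw [← hb, ha', hd']; ring⟩
  have hg2 : g ^ 2 ≠ 0 := pow_ne_zero 2 hg
  have e1 : a' ^ 2 + d' ^ 2 = c' ^ 2 := by
    apply mul_left_cancel₀ hg2
    calc g ^ 2 * (a' ^ 2 + d' ^ 2) = (g * a') ^ 2 + (g * d') ^ 2 := by ring
      _ = c ^ 2 := by rw [← ha', ← hd', hc]
      _ = g ^ 2 * c' ^ 2 := by rw [hc']; ring
  have e2 : a' ^ 2 + 16 * d' ^ 2 = b' ^ 2 := by
    apply mul_left_cancel₀ hg2
    calc g ^ 2 * (a' ^ 2 + 16 * d' ^ 2) = (g * a') ^ 2 + 16 * (g * d') ^ 2 := by ring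
      _ = b ^ 2 := by rw [← ha', ← hd', hb]
      _ = g ^ 2 * b' ^ 2 := by rw [hb']; ring
  rcases core_coprime hcop e1 e2 with h | h
  · left; rw [ha', h, mul_zero]
  · right; rw [hd', h, mul_zero]

/-- If `g, h` are coprime with `g` odd, `h` even and `(4 g² + h²)(g² + 4 h²)` is a square,
then `h = 0`. -/
lemma quartic_aux {g h b : ℤ} (hgh : IsCoprime g h) (hg : g % 2 = 1) (hh : h % 2 = 0)
    (hb : (4 * g ^ 2 + h ^ 2) * (g ^ 2 + 4 * h ^ 2) = b ^ 2) : h = 0 := by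
  have hg0 : g ≠ 0 := by rintro rfl; simp at hg
  obtain ⟨k, rfl⟩ := Int.dvd_of_emod_eq_zero hh
  have hpos : 0 < g ^ 2 := by positivity
  have hBpos : 0 < g ^ 2 + 4 * (2 * k) ^ 2 := by positivity
  have hApos : 0 < 4 * g ^ 2 + (2 * k) ^ 2 := by positivity
  obtain ⟨e, y, hey, hesq, heA, heB, he0, hy0⟩ := sqfree_part hBpos.ne' hb
  have he15 : e ∣ 15 := by
    obtain ⟨u, v, huv⟩ := (hgh.pow (m := 2) (n := 2))
    have h1 : e ∣ 15 * g ^ 2 := by
      rw [show 15 * g ^ 2 = 4 * (4 * g ^ 2 + (2 * k) ^ 2) - (g ^ 2 + 4 * (2 * k) ^ 2) by ring]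
      exact (heA.mul_left 4).sub heB
    have h2 : e ∣ 15 * (2 * k) ^ 2 := by
      rw [show 15 * (2 * k) ^ 2 = 4 * (g ^ 2 + 4 * (2 * k) ^ 2) - (4 * g ^ 2 + (2 * k) ^ 2) by ring]
      exact (heB.mul_left 4).sub heA
    have := (h1.mul_left u).add (h2.mul_left v)
    have h15 : u * (15 * g ^ 2) + v * (15 * (2 * k) ^ 2) = 15 := by linear_combination 15 * huv
    rwa [h15] at this
  have hepos : 0 < e := by
    have hy2 : 0 < y ^ 2 := by positivity
    by_contra hneg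
    push Not at hneg
    nlinarith
  have hno3 : ¬ (3 : ℤ) ∣ g ^ 2 + 4 * (2 * k) ^ 2 := by
    intro h3
    have h3' : (3 : ℤ) ∣ g ^ 2 + (2 * k) ^ 2 := by
      rw [show g ^ 2 + (2 * k) ^ 2 = g ^ 2 + 4 * (2 * k) ^ 2 - 3 * (2 * k) ^ 2 by ring]
      exact h3.sub (Dvd.intro _ rfl)
    have := three_dvd_of_sum_sq h3'
    obtain ⟨u, v, huv⟩ := hgh
    have h31 : (3 : ℤ) ∣ 1 := by
      rw [← huv]
      exact dvd_add (this.1.mul_left u) (this.2.mul_left v)
    omega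
  have hg8 := odd_sq_mod hg
  rcases pos_dvd_fifteen he15 hepos with rfl | rfl | rfl | rfl
  · -- both are squares
    rw [one_mul] at hey
    obtain ⟨x, hx⟩ : ∃ x, 4 * g ^ 2 + (2 * k) ^ 2 = x ^ 2 := by
      obtain ⟨x, hx⟩ : y ∣ b := dvd_of_sq_dvd_sq ⟨4 * g ^ 2 + (2 * k) ^ 2, by rw [← hb, hey]; ring⟩
      refine ⟨x, ?_⟩
      apply mul_left_cancel₀ (pow_ne_zero 2 hy0)
      rw [hx] at hb
      rw [← hey]
      linear_combination hb - x ^ 2 * hey
    have hx2 : x % 2 = 0 := by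
      rcases Int.emod_two_eq_zero_or_one x with h' | h'
      · exact h'
      · have := odd_sq_mod h'
        have hx' : x ^ 2 = 4 * g ^ 2 + 4 * k ^ 2 := by linarith
        omega
    obtain ⟨x', rfl⟩ := Int.dvd_of_emod_eq_zero hx2
    rcases core (a := g) (d := k) (c := x') (b := y) (by linarith) (by linarith) with h | h
    · exact absurd h hg0
    · rw [h, mul_zero]
  · exact absurd ⟨y ^ 2, hey⟩ hno3
  · exfalso
    have hy1 : y % 2 = 1 := by
      rcases Int.emod_two_eq_zero_or_one y with h' | h'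
      · exfalso
        obtain ⟨y', rfl⟩ := Int.dvd_of_emod_eq_zero h'
        have h1 : g ^ 2 + 16 * k ^ 2 = 20 * y' ^ 2 := by linarith
        omega
      · exact h'
    have hy8 := odd_sq_mod hy1
    have h1 : g ^ 2 + 16 * k ^ 2 = 5 * y ^ 2 := by linarith
    omega
  · exact absurd ⟨5 * y ^ 2, by rw [hey]; ring⟩ hno3

/-- `q² - 4p² = a²`, `4q² + 9p² = b²`, coprime, `p` even. -/
lemma I1_even {q p a b : ℤ} (hqp : IsCoprime q p) (hp : p % 2 = 0)
    (h1 : q ^ 2 - 4 * p ^ 2 = a ^ 2) (h2 : 4 * q ^ 2 + 9 * p ^ 2 = b ^ 2) : p = 0 := by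
  have hq : q % 2 = 1 := by
    rcases Int.emod_two_eq_zero_or_one q with hq | hq
    · exfalso
      obtain ⟨u, v, huv⟩ := hqp
      have h2 : (2 : ℤ) ∣ 1 := by
        rw [← huv]
        exact dvd_add ((Int.dvd_of_emod_eq_zero hq).mul_left u)
          ((Int.dvd_of_emod_eq_zero hp).mul_left v)
      omega
    · exact hq
  have hq0 : q ≠ 0 := by rintro rfl; simp at hq
  have hq8 := odd_sq_mod hq
  have ha : a % 2 = 1 := by
    rcases Int.emod_two_eq_zero_or_one a with h | h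
    · exfalso
      obtain ⟨a', rfl⟩ := Int.dvd_of_emod_eq_zero h
      have : (2 * a') ^ 2 = 4 * a' ^ 2 := by ring
      omega
    · exact h
  have hPT : PythagoreanTriple a (2 * p) |q| := by
    unfold PythagoreanTriple
    rw [abs_mul_abs_self]; linear_combination -h1
  have hcop : IsCoprime a (2 * p) := by
    have h2a : IsCoprime a 2 := (isCoprime_two_of_odd ha).symm
    refine h2a.mul_right ?_
    -- a coprime to p
    have : IsCoprime (a ^ 2) p := by
      rw [← h1]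
      have := (hqp.pow_left (m := 2)).add_mul_right_left (-4 * p)
      rwa [show q ^ 2 + -4 * p * p = q ^ 2 - 4 * p ^ 2 by ring] at this
    exact (IsCoprime.pow_left_iff two_pos).mp this
  obtain ⟨g, h, hg1, hg2, hg3, hg4, hg5, -⟩ :=
    hPT.coprime_classification' (isCoprime_iff_gcd'.mp hcop) ha (abs_pos.mpr hq0)
  rw [← isCoprime_iff_gcd'] at hg4
  have hpgh : p = g * h := by linarith
  have hq2 : q ^ 2 = (g ^ 2 + h ^ 2) ^ 2 := by rw [← hg3, sq_abs]
  have hb : (4 * g ^ 2 + h ^ 2) * (g ^ 2 + 4 * h ^ 2) = b ^ 2 := by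
    rw [← h2, hq2, hpgh]; ring
  rcases hg5 with ⟨he, ho⟩ | ⟨ho, he⟩
  · have := quartic_aux hg4.symm ho he (b := b) (by rw [← hb]; ring)
    rw [hpgh, this, zero_mul]
  · have := quartic_aux hg4 ho he hb
    rw [hpgh, this, mul_zero]

/-- `q² - 4p² = a²`, `4q² + 9p² = b²` implies `p = 0` or `a = 0`. -/
lemma I1 {q p a b : ℤ}
    (h1 : q ^ 2 - 4 * p ^ 2 = a ^ 2) (h2 : 4 * q ^ 2 + 9 * p ^ 2 = b ^ 2) : p = 0 ∨ a = 0 := by
  -- first the coprime case
  have hco : ∀ {q p a b : ℤ}, IsCoprime q p → q ^ 2 - 4 * p ^ 2 = a ^ 2 →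
      4 * q ^ 2 + 9 * p ^ 2 = b ^ 2 → p = 0 ∨ a = 0 := by
    intro q p a b hqp h1 h2
    rcases Int.emod_two_eq_zero_or_one p with hp | hp
    · exact Or.inl (I1_even hqp hp h1 h2)
    · right
      have hp8 := odd_sq_mod hp
      have hp0 : p ≠ 0 := by rintro rfl; simp at hp
      have ha : a % 2 = 0 := by
        rcases Int.emod_two_eq_zero_or_one a with h | h
        · exact h
        · exfalso
          have ha8 := odd_sq_mod h
          have hq : q % 2 = 1 := by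
            rcases Int.emod_two_eq_zero_or_one q with h' | h'
            · exfalso
              obtain ⟨q', rfl⟩ := Int.dvd_of_emod_eq_zero h'
              have : (2 * q') ^ 2 = 4 * q' ^ 2 := by ring
              omega
            · exact h'
          have hq8 := odd_sq_mod hq
          omega
      have hb : b % 2 = 1 := by
        rcases Int.emod_two_eq_zero_or_one b with h' | h'
        · exfalso
          obtain ⟨b', rfl⟩ := Int.dvd_of_emod_eq_zero h'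
          have : (2 * b') ^ 2 = 4 * b' ^ 2 := by ring
          omega
        · exact h'
      have hb0 : b ≠ 0 := by rintro rfl; simp at hb
      obtain ⟨g, b', a', hg, hb', ha', hcop⟩ := exists_coprime_of_ne (d := a) (Or.inl hb0)
      have hg2 : g ^ 2 ≠ 0 := pow_ne_zero 2 hg
      have e1 : b ^ 2 - 4 * a ^ 2 = (5 * p) ^ 2 := by rw [← h1, ← h2]; ring
      have e2 : 4 * b ^ 2 + 9 * a ^ 2 = (5 * q) ^ 2 := by rw [← h1, ← h2]; ring
      obtain ⟨p', hp'⟩ : g ∣ 5 * p :=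
        dvd_of_sq_dvd_sq ⟨b' ^ 2 - 4 * a' ^ 2, by rw [← e1, ha', hb']; ring⟩
      obtain ⟨q', hq'⟩ : g ∣ 5 * q :=
        dvd_of_sq_dvd_sq ⟨4 * b' ^ 2 + 9 * a' ^ 2, by rw [← e2, ha', hb']; ring⟩
      have e1' : b' ^ 2 - 4 * a' ^ 2 = p' ^ 2 := by
        apply mul_left_cancel₀ hg2
        calc g ^ 2 * (b' ^ 2 - 4 * a' ^ 2) = (g * b') ^ 2 - 4 * (g * a') ^ 2 := by ring
          _ = (5 * p) ^ 2 := by rw [← ha', ← hb', e1]
          _ = g ^ 2 * p' ^ 2 := by rw [hp']; ring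
      have e2' : 4 * b' ^ 2 + 9 * a' ^ 2 = q' ^ 2 := by
        apply mul_left_cancel₀ hg2
        calc g ^ 2 * (4 * b' ^ 2 + 9 * a' ^ 2) = 4 * (g * b') ^ 2 + 9 * (g * a') ^ 2 := by ring
          _ = (5 * q) ^ 2 := by rw [← ha', ← hb', e2]
          _ = g ^ 2 * q' ^ 2 := by rw [hq']; ring
      have ha'2 : a' % 2 = 0 := by
        rcases Int.emod_two_eq_zero_or_one a' with h' | h'
        · exact h'
        · exfalso
          have hgo : g % 2 = 1 := by
            rcases Int.emod_two_eq_zero_or_one g with h'' | h''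
            · exfalso
              rw [hb', Int.mul_emod, h''] at hb
              simp at hb
            · exact h''
          rw [ha', Int.mul_emod, h', hgo] at ha
          simp at ha
      have := I1_even hcop ha'2 e1' e2'
      rw [ha', this, mul_zero]
  by_cases hp0 : p = 0
  · exact Or.inl hp0
  obtain ⟨g, q', p', hg, hq', hp', hcop⟩ := exists_coprime_of_ne (a := q) (Or.inr hp0)
  obtain ⟨a', ha'⟩ : g ∣ a :=
    dvd_of_sq_dvd_sq ⟨q' ^ 2 - 4 * p' ^ 2, by rw [← h1, hq', hp']; ring⟩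
  obtain ⟨b', hb'⟩ : g ∣ b :=
    dvd_of_sq_dvd_sq ⟨4 * q' ^ 2 + 9 * p' ^ 2, by rw [← h2, hq', hp']; ring⟩
  have hg2 : g ^ 2 ≠ 0 := pow_ne_zero 2 hg
  have e1 : q' ^ 2 - 4 * p' ^ 2 = a' ^ 2 := by
    apply mul_left_cancel₀ hg2
    calc g ^ 2 * (q' ^ 2 - 4 * p' ^ 2) = (g * q') ^ 2 - 4 * (g * p') ^ 2 := by ring
      _ = a ^ 2 := by rw [← hq', ← hp', h1]
      _ = g ^ 2 * a' ^ 2 := by rw [ha']; ring
  have e2 : 4 * q' ^ 2 + 9 * p' ^ 2 = b' ^ 2 := by
    apply mul_left_cancel₀ hg2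
    calc g ^ 2 * (4 * q' ^ 2 + 9 * p' ^ 2) = 4 * (g * q') ^ 2 + 9 * (g * p') ^ 2 := by ring
      _ = b ^ 2 := by rw [← hq', ← hp', h2]
      _ = g ^ 2 * b' ^ 2 := by rw [hb']; ring
  rcases hco hcop e1 e2 with h | h
  · left; rw [hp', h, mul_zero]
  · right; rw [ha', h, mul_zero]

/-- Rational version of `I1`. -/
lemma I1_rat {t z w : ℚ} (h1 : t ^ 2 - 4 = z ^ 2) (h2 : 4 * t ^ 2 + 9 = w ^ 2) : z = 0 := by
  have ht : (t.den : ℚ) ≠ 0 := by exact_mod_cast t.den_ne_zero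
  have hz : (z.den : ℚ) ≠ 0 := by exact_mod_cast z.den_ne_zero
  have hw : (w.den : ℚ) ≠ 0 := by exact_mod_cast w.den_ne_zero
  have hte : t * t.den = t.num := Rat.mul_den_eq_num t
  have hze : z * z.den = z.num := Rat.mul_den_eq_num z
  have hwe : w * w.den = w.num := Rat.mul_den_eq_num w
  set D : ℤ := t.den * z.den * w.den with hD
  have hD0 : D ≠ 0 := by
    rw [hD]; exact_mod_cast mul_ne_zero (mul_ne_zero t.den_ne_zero z.den_ne_zero) w.den_ne_zero
  have e1 : (t.num * z.den * w.den) ^ 2 - 4 * D ^ 2 = (t.den * z.num * w.den) ^ 2 := by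
    have : (((t.num * z.den * w.den) ^ 2 - 4 * D ^ 2 : ℤ) : ℚ)
        = (((t.den * z.num * w.den) ^ 2 : ℤ) : ℚ) := by
      rw [hD]; push_cast; rw [← hte, ← hze]
      linear_combination (t.den * z.den * w.den : ℚ) ^ 2 * h1
    exact_mod_cast this
  have e2 : 4 * (t.num * z.den * w.den) ^ 2 + 9 * D ^ 2 = (t.den * z.den * w.num) ^ 2 := by
    have : ((4 * (t.num * z.den * w.den) ^ 2 + 9 * D ^ 2 : ℤ) : ℚ)
        = (((t.den * z.den * w.num) ^ 2 : ℤ) : ℚ) := by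
      rw [hD]; push_cast; rw [← hte, ← hwe]
      linear_combination (t.den * z.den * w.den : ℚ) ^ 2 * h2
    exact_mod_cast this
  rcases I1 e1 e2 with h | h
  · exact absurd h hD0
  · have : z.num = 0 := by
      have ht' : (t.den : ℤ) ≠ 0 := by exact_mod_cast t.den_ne_zero
      have hw' : (w.den : ℤ) ≠ 0 := by exact_mod_cast w.den_ne_zero
      simpa [ht', hw'] using h
    exact Rat.zero_of_num_zero this

/-- Class `(II, 1)`. -/
lemma II1_rat {t z w : ℚ} (h1 : t ^ 2 + 4 = z ^ 2) (h2 : 9 - 4 * t ^ 2 = w ^ 2) :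
    t = 0 ∨ w = 0 := by
  by_cases ht : t = 0
  · exact Or.inl ht
  right
  have e1 : (3 / t) ^ 2 - 4 = (w / t) ^ 2 := by
    field_simp; linear_combination h2
  have e2 : 4 * (3 / t) ^ 2 + 9 = (3 * z / t) ^ 2 := by
    field_simp; linear_combination 9 * h1
  have := I1_rat e1 e2
  rcases div_eq_zero_iff.mp this with h | h
  · exact h
  · exact absurd h ht

end Fermat.Agent.X015
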