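import Fermat.Agent.X015.Dioph2

set_option autoImplicit false

namespace Fermat.Agent.X015

/-- Squarefree part lemma, with the complementary square. -/
lemma sqfree_part' {A B n : ℤ} (hB : B ≠ 0) (h : A * B = n ^ 2) :
    ∃ e b m : ℤ, B = e * b ^ 2 ∧ Squarefree e ∧ e ∣ A ∧ e ∣ B ∧ e ≠ 0 ∧ b ≠ 0 ∧ A * e = m ^ 2 := by
  obtain ⟨e, b, he, hesq, heA, heB, he0, hb0⟩ := sqfree_part hB h
  obtain ⟨m, hm⟩ : b ∣ n := dvd_of_sq_dvd_sq ⟨A * e, by rw [← h, he]; ring⟩
  refine ⟨e, b, m, he, hesq, heA, heB, he0, hb0, ?_⟩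
  apply mul_left_cancel₀ (pow_ne_zero 2 hb0)
  calc b ^ 2 * (A * e) = A * B := by rw [he]; ring
    _ = b ^ 2 * m ^ 2 := by rw [h, hm]; ring

lemma dvd_six {e : ℤ} (h : e ∣ 6) : e = 1 ∨ e = 2 ∨ e = 3 ∨ e = 6 ∨ e = -1 ∨ e = -2 ∨ e = -3 ∨ e = -6 := by
  have h1 : e.natAbs ∣ 6 := by
    have := Int.natAbs_dvd_natAbs.mpr h
    simpa using this
  have h2 : e.natAbs ∈ Nat.divisors 6 := by simp [h1]
  have h3 : Nat.divisors 6 = {1, 2, 3, 6} := by decide
  rw [h3] at h2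
  simp only [Finset.mem_insert, Finset.mem_singleton] at h2
  omega

lemma dvd_two' {e : ℤ} (h : e ∣ 2) : e = 1 ∨ e = 2 ∨ e = -1 ∨ e = -2 := by
  have h1 : e.natAbs ∣ 2 := by
    have := Int.natAbs_dvd_natAbs.mpr h
    simpa using this
  have h2 : e.natAbs ∈ Nat.divisors 2 := by simp [h1]
  have h3 : Nat.divisors 2 = {1, 2} := by decide
  rw [h3] at h2
  simp only [Finset.mem_insert, Finset.mem_singleton] at h2
  omega

lemma dvd_five' {e : ℤ} (h : e ∣ 5) : e = 1 ∨ e = 5 ∨ e = -1 ∨ e = -5 := by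
  have h1 : e.natAbs ∣ 5 := by
    have := Int.natAbs_dvd_natAbs.mpr h
    simpa using this
  have h2 : e.natAbs ∈ Nat.divisors 5 := by simp [h1]
  have h3 : Nat.divisors 5 = {1, 5} := by decide
  rw [h3] at h2
  simp only [Finset.mem_insert, Finset.mem_singleton] at h2
  omega

/-- The `3`-adic argument. -/
lemma three_arg {e g b m : ℤ} (he : ¬ (3 : ℤ) ∣ e) (hg : ¬ (3 : ℤ) ∣ g)
    (h : e * g * (3 * e * b ^ 2 - 4 * g) * (4 * e * b ^ 2 + 3 * g) = m ^ 2) : False := by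
  have hp3 : Prime (3 : ℤ) := Int.prime_three
  by_cases hb : (3 : ℤ) ∣ b
  · obtain ⟨b1, rfl⟩ := hb
    have h3m : (3 : ℤ) ∣ m := hp3.dvd_of_dvd_pow
      ⟨e * g * (3 * e * (3 * b1) ^ 2 - 4 * g) * (12 * e * b1 ^ 2 + g), by rw [← h]; ring⟩
    obtain ⟨m1, rfl⟩ := h3m
    have h' : e * g * (3 * (9 * e * b1 ^ 2) - 4 * g) * (3 * (4 * e * b1 ^ 2) + g) = 3 * m1 ^ 2 := by
      linarith
    have h3 : (3 : ℤ) ∣ e * g * (3 * (9 * e * b1 ^ 2) - 4 * g) * (3 * (4 * e * b1 ^ 2) + g) :=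
      ⟨_, h'⟩
    rcases hp3.dvd_or_dvd h3 with h3 | h3
    · rcases hp3.dvd_or_dvd h3 with h3 | h3
      · rcases hp3.dvd_or_dvd h3 with h3 | h3
        · exact he h3
        · exact hg h3
      · apply hg
        omega
    · apply hg
      omega
  · have h1 : (e * g * b) ^ 2 % 3 = 1 := by
      rcases sq_mod_three (n := e * g * b) with h0 | h0
      · exfalso
        have : (3 : ℤ) ∣ e * g * b := hp3.dvd_of_dvd_pow (Int.dvd_of_emod_eq_zero h0)
        rcases hp3.dvd_or_dvd this with h3 | h3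
        · rcases hp3.dvd_or_dvd h3 with h3 | h3
          · exact he h3
          · exact hg h3
        · exact hb h3
      · exact h0
    have h2 : m ^ 2 = 2 * (e * g * b) ^ 2 +
        3 * (4 * e ^ 3 * g * b ^ 4 + 3 * e ^ 2 * g ^ 2 * b ^ 2 - 6 * e ^ 2 * g ^ 2 * b ^ 2
          - 4 * e * g ^ 3 - 0) := by
      rw [← h]; ring
    have := sq_mod_three (n := m)
    omega

/-- The `2`-adic argument for `f`. -/
lemma two_arg {e g b m : ℤ} (he : e % 2 = 1) (hg : g % 2 = 1)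
    (h : e * g * (e * b ^ 2 - 2 * g) * (8 * e * b ^ 2 + 9 * g) = m ^ 2) : False := by
  have he8 := odd_sq_mod he
  have hg8 := odd_sq_mod hg
  have heg : (e * g) % 2 = 1 := by simp [Int.mul_emod, he, hg]
  rcases Int.emod_two_eq_zero_or_one b with hb | hb
  · obtain ⟨b1, rfl⟩ := Int.dvd_of_emod_eq_zero hb
    have hm : m % 2 = 0 := by
      rcases Int.emod_two_eq_zero_or_one m with h' | h'
      · exact h'
      · exfalso
        have := odd_sq_mod h'
        have h2 : m ^ 2 = 2 * (e * g * (2 * e * b1 ^ 2 - g) * (32 * e * b1 ^ 2 + 9 * g)) := by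
          rw [← h]; ring
        omega
    obtain ⟨m1, rfl⟩ := Int.dvd_of_emod_eq_zero hm
    have h2 : 2 * m1 ^ 2 = e * g * (2 * e * b1 ^ 2 - g) * (32 * e * b1 ^ 2 + 9 * g) := by
      linarith
    have h3 : (e * g * (2 * e * b1 ^ 2 - g) * (32 * e * b1 ^ 2 + 9 * g)) % 2 = 1 := by
      have h4 : (2 * e * b1 ^ 2 - g) % 2 = 1 := by
        have : 2 * e * b1 ^ 2 - g = 2 * (e * b1 ^ 2) - g := by ring
        omega
      have h5 : (32 * e * b1 ^ 2 + 9 * g) % 2 = 1 := by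
        have : 32 * e * b1 ^ 2 + 9 * g = 2 * (16 * e * b1 ^ 2) + 9 * g := by ring
        omega
      rw [Int.mul_emod, Int.mul_emod (e * g), heg, h4, h5]; norm_num
    omega
  · have hb8 := odd_sq_mod hb
    -- `m² ≡ 1 - 2 e g` modulo 8
    obtain ⟨B, hB⟩ : ∃ B, b ^ 2 = 1 + 8 * B := ⟨b ^ 2 / 8, by omega⟩
    obtain ⟨E, hE⟩ : ∃ E, e ^ 2 = 1 + 8 * E := ⟨e ^ 2 / 8, by omega⟩
    obtain ⟨G, hG⟩ : ∃ G, g ^ 2 = 1 + 8 * G := ⟨g ^ 2 / 8, by omega⟩
    have h1 : ∃ T, m ^ 2 = 1 - 2 * (e * g) + 8 * T := by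
      have : m ^ 2 = 8 * e ^ 3 * g * b ^ 4 - 7 * (e ^ 2) * (g ^ 2) * b ^ 2 - 18 * e * g * g ^ 2 := by
        rw [← h]; ring
      rw [this, hB, hE, hG]
      exact ⟨e ^ 3 * g * b ^ 4 - (7 * ((1 + 8 * E) * (1 + 8 * G) * (1 + 8 * B)) + 1) / 8 -
        2 * e * g - 18 * e * g * G, by
          have h7 : (7 * ((1 + 8 * E) * (1 + 8 * G) * (1 + 8 * B)) + 1) / 8 =
            1 + 7 * (E + G + B + 8 * (E * G + E * B + G * B) + 64 * E * G * B) := by
            apply Int.ediv_eq_of_eq_mul_left (by norm_num); ring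
          rw [h7]; ring⟩
    obtain ⟨T, hT⟩ := h1
    have hm : m % 2 = 1 := by
      rcases Int.emod_two_eq_zero_or_one m with h' | h'
      · exfalso
        obtain ⟨m1, rfl⟩ := Int.dvd_of_emod_eq_zero h'
        have : (2 * m1) ^ 2 = 4 * m1 ^ 2 := by ring
        omega
      · exact h'
    have hm8 := odd_sq_mod hm
    omega

/-- The `2`-adic argument for `g`. -/
lemma two_arg' {f b m : ℤ} (hf : f % 2 = 1)
    (h : f * (f - 8 * b ^ 2) * (2 * f + 9 * b ^ 2) = m ^ 2) : False := by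
  have hf8 := odd_sq_mod hf
  rcases Int.emod_two_eq_zero_or_one b with hb | hb
  · obtain ⟨b1, rfl⟩ := Int.dvd_of_emod_eq_zero hb
    have hm : m % 2 = 0 := by
      rcases Int.emod_two_eq_zero_or_one m with h' | h'
      · exact h'
      · exfalso
        have := odd_sq_mod h'
        have h2 : m ^ 2 = 2 * (f * (f - 32 * b1 ^ 2) * (f + 18 * b1 ^ 2)) := by
          rw [← h]; ring
        omega
    obtain ⟨m1, rfl⟩ := Int.dvd_of_emod_eq_zero hm
    have h2 : 2 * m1 ^ 2 = f * (f - 32 * b1 ^ 2) * (f + 18 * b1 ^ 2) := by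
      linarith
    have h3 : (f * (f - 32 * b1 ^ 2) * (f + 18 * b1 ^ 2)) % 2 = 1 := by
      have h4 : (f - 32 * b1 ^ 2) % 2 = 1 := by omega
      have h5 : (f + 18 * b1 ^ 2) % 2 = 1 := by omega
      rw [Int.mul_emod, Int.mul_emod f, hf, h4, h5]; norm_num
    omega
  · have hb8 := odd_sq_mod hb
    obtain ⟨B, hB⟩ : ∃ B, b ^ 2 = 1 + 8 * B := ⟨b ^ 2 / 8, by omega⟩
    obtain ⟨G, hG⟩ : ∃ G, f ^ 2 = 1 + 8 * G := ⟨f ^ 2 / 8, by omega⟩
    have h1 : ∃ T, m ^ 2 = 1 + 2 * f + 8 * T := by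
      have : m ^ 2 = (f ^ 2 - 8 * f * b ^ 2) * (2 * f + 9 * b ^ 2) := by
        rw [← h]; ring
      rw [this, hB, hG]
      exact ⟨1 + 9 * B + G * (2 * f + 9 + 72 * B) - f * (1 + 8 * B) * (2 * f + 9 + 72 * B), by ring⟩
    obtain ⟨T, hT⟩ := h1
    have hm : m % 2 = 1 := by
      rcases Int.emod_two_eq_zero_or_one m with h' | h'
      · exfalso
        obtain ⟨m1, rfl⟩ := Int.dvd_of_emod_eq_zero h'
        have : (2 * m1) ^ 2 = 4 * m1 ^ 2 := by ring
        omega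
      · exact h'
    have hm8 := odd_sq_mod hm
    omega

lemma isCoprime_odd_of_even {a b : ℤ} (h : IsCoprime a b) (ha : (2 : ℤ) ∣ a) : b % 2 = 1 := by
  rcases Int.emod_two_eq_zero_or_one b with hb | hb
  · exfalso
    obtain ⟨u, v, huv⟩ := h
    have h2 : (2 : ℤ) ∣ 1 := by
      rw [← huv]
      exact dvd_add (ha.mul_left u) ((Int.dvd_of_emod_eq_zero hb).mul_left v)
    omega
  · exact hb

lemma not_three_dvd_of_coprime {a b : ℤ} (h : IsCoprime a b) (ha : (3 : ℤ) ∣ a) : ¬ (3 : ℤ) ∣ b := by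
  intro hb
  obtain ⟨u, v, huv⟩ := h
  have h2 : (3 : ℤ) ∣ 1 := by
    rw [← huv]
    exact dvd_add (ha.mul_left u) (hb.mul_left v)
  omega

/-- First part of the `2`-descent: `f` is plus or minus a square. -/
lemma f_sq {f g n : ℤ} (hfg : IsCoprime f g) (hf : f ≠ 0)
    (h : (g * (f - 4 * g) * (4 * f + 9 * g)) * f = n ^ 2) :
    ∃ q : ℤ, q ≠ 0 ∧ (f = q ^ 2 ∨ f = -q ^ 2) := by
  obtain ⟨e, b, m, hfe, hesq, heA, hef, he0, hb0, hm⟩ := sqfree_part' hf h
  have heg : IsCoprime e g := by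
    rw [hfe] at hfg; exact hfg.of_mul_left_left
  have he36 : e ∣ 36 := by
    have h1 : e ∣ g ^ 3 * 36 := by
      have h2 : g ^ 3 * 36 = f * (4 * f * g - 7 * g ^ 2) - g * (f - 4 * g) * (4 * f + 9 * g) := by
        ring
      rw [h2]
      exact (hef.mul_right _).sub heA
    exact (heg.pow_right).dvd_of_dvd_mul_left h1
  have he6 : e ∣ 6 := by
    have : e ∣ 6 ^ 2 := by norm_num; exact he36
    exact (hesq.dvd_pow_iff_dvd two_ne_zero).mp this
  rcases dvd_six he6 with rfl | rfl | rfl | rfl | rfl | rfl | rfl | rfl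
  · exact ⟨b, hb0, Or.inl (by linarith)⟩
  · exfalso
    have hgo := isCoprime_odd_of_even heg (dvd_refl _)
    have hm2 : (2 : ℤ) ∣ m := by
      apply Int.prime_two.dvd_of_dvd_pow (n := 2)
      rw [← hm]; exact Dvd.dvd.mul_left (by norm_num) _
    obtain ⟨m1, rfl⟩ := hm2
    refine two_arg (e := 1) (g := g) (b := b) (m := m1) (by norm_num) hgo ?_
    rw [hfe] at hm
    linarith
  · exfalso
    have hg3 := not_three_dvd_of_coprime heg (dvd_refl _)
    have hm2 : (3 : ℤ) ∣ m := by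
      apply Int.prime_three.dvd_of_dvd_pow (n := 2)
      rw [← hm]; exact Dvd.dvd.mul_left (by norm_num) _
    obtain ⟨m1, rfl⟩ := hm2
    refine three_arg (e := 1) (g := g) (b := b) (m := m1) (by norm_num) hg3 ?_
    rw [hfe] at hm
    linarith
  · exfalso
    have hg3 := not_three_dvd_of_coprime heg (by norm_num)
    have hm2 : (3 : ℤ) ∣ m := by
      apply Int.prime_three.dvd_of_dvd_pow (n := 2)
      rw [← hm]; exact Dvd.dvd.mul_left (by norm_num) _
    obtain ⟨m1, rfl⟩ := hm2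
    refine three_arg (e := 2) (g := g) (b := b) (m := m1) (by norm_num) hg3 ?_
    rw [hfe] at hm
    linarith
  · exact ⟨b, hb0, Or.inr (by linarith)⟩
  · exfalso
    have hgo := isCoprime_odd_of_even heg (by norm_num)
    have hm2 : (2 : ℤ) ∣ m := by
      apply Int.prime_two.dvd_of_dvd_pow (n := 2)
      rw [← hm]; exact Dvd.dvd.mul_left (by norm_num) _
    obtain ⟨m1, rfl⟩ := hm2
    refine two_arg (e := -1) (g := g) (b := b) (m := m1) (by norm_num) hgo ?_
    rw [hfe] at hm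
    linarith
  · exfalso
    have hg3 := not_three_dvd_of_coprime heg (by norm_num)
    have hm2 : (3 : ℤ) ∣ m := by
      apply Int.prime_three.dvd_of_dvd_pow (n := 2)
      rw [← hm]; exact Dvd.dvd.mul_left (by norm_num) _
    obtain ⟨m1, rfl⟩ := hm2
    refine three_arg (e := -1) (g := g) (b := b) (m := m1) (by norm_num) hg3 ?_
    rw [hfe] at hm
    linarith
  · exfalso
    have hg3 := not_three_dvd_of_coprime heg (by norm_num)
    have hm2 : (3 : ℤ) ∣ m := by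
      apply Int.prime_three.dvd_of_dvd_pow (n := 2)
      rw [← hm]; exact Dvd.dvd.mul_left (by norm_num) _
    obtain ⟨m1, rfl⟩ := hm2
    refine three_arg (e := -2) (g := g) (b := b) (m := m1) (by norm_num) hg3 ?_
    rw [hfe] at hm
    linarith

/-- Second part of the `2`-descent: `g > 0` is a square. -/
lemma g_sq {f g n : ℤ} (hfg : IsCoprime f g) (hg : 0 < g)
    (h : (f * (f - 4 * g) * (4 * f + 9 * g)) * g = n ^ 2) :
    ∃ p : ℤ, p ≠ 0 ∧ g = p ^ 2 := by
  obtain ⟨e, b, m, hfe, hesq, heA, hef, he0, hb0, hm⟩ := sqfree_part' hg.ne' h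
  have heg : IsCoprime e f := by
    rw [hfe] at hfg; exact (hfg.of_mul_right_left).symm
  have he4 : e ∣ 4 := by
    have h1 : e ∣ f ^ 3 * 4 := by
      have h2 : f ^ 3 * 4 = f * (f - 4 * g) * (4 * f + 9 * g) - g * (9 * f ^ 2 - 16 * f ^ 2 - 36 * f * g) := by
        ring
      rw [h2]
      exact heA.sub (hef.mul_right _)
    exact (heg.pow_right).dvd_of_dvd_mul_left h1
  have he2 : e ∣ 2 := by
    have : e ∣ 2 ^ 2 := by norm_num; exact he4
    exact (hesq.dvd_pow_iff_dvd two_ne_zero).mp this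
  have hepos : 0 < e := by
    have hy2 : 0 < b ^ 2 := by positivity
    by_contra hneg
    push Not at hneg
    nlinarith
  rcases dvd_two' he2 with rfl | rfl | rfl | rfl
  · exact ⟨b, hb0, by linarith⟩
  · exfalso
    have hgo := isCoprime_odd_of_even heg (dvd_refl _)
    have hm2 : (2 : ℤ) ∣ m := by
      apply Int.prime_two.dvd_of_dvd_pow (n := 2)
      rw [← hm]; exact Dvd.dvd.mul_left (by norm_num) _
    obtain ⟨m1, rfl⟩ := hm2
    refine two_arg' (f := f) (b := b) (m := m1) hgo ?_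
    rw [hfe] at hm
    linarith
  · omega
  · omega

end Fermat.Agent.X015
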