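import Mathlib

set_option autoImplicit false

/-!
# Points of order 3 and 5 on a Weierstrass curve over a field
-/

namespace Fermat.Agent.X015

open WeierstrassCurve WeierstrassCurve.Affine WeierstrassCurve.Affine.Point

section Field

variable {F : Type*} [Field F] {W : Affine F}

/-- the cubic `4x³ + b₂x² + 2b₄x + b₆`. -/
def psiTwoSq (W : Affine F) (x : F) : F := 4 * x ^ 3 + W.b₂ * x ^ 2 + 2 * W.b₄ * x + W.b₆

/-- the numerator of the duplication map. -/
def dupNum (W : Affine F) (x : F) : F := x ^ 4 - W.b₄ * x ^ 2 - 2 * W.b₆ * x - W.b₈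

/-- the third division polynomial. -/
def psiThree (W : Affine F) (x : F) : F :=
  3 * x ^ 4 + W.b₂ * x ^ 3 + 3 * W.b₄ * x ^ 2 + 3 * W.b₆ * x + W.b₈

lemma psiThree_eq (x : F) : psiThree W x = x * psiTwoSq W x - dupNum W x := by
  unfold psiThree psiTwoSq dupNum; ring

lemma sq_eq_psiTwoSq {x y : F} (h : W.Equation x y) :
    (2 * y + W.a₁ * x + W.a₃) ^ 2 = psiTwoSq W x := by
  rw [equation_iff] at h
  simp only [psiTwoSq, b₂, b₄, b₆]
  linear_combination 4 * h

lemma sub_negY (x y : F) : y - W.negY x y = 2 * y + W.a₁ * x + W.a₃ := by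
  simp only [negY]; ring

/-- resultant identity of `dupNum` and `psiTwoSq`. -/
lemma delta_eq (x : F) : W.Δ = (-48 * x ^ 2 - 8 * W.b₂ * x + W.b₂ ^ 2 - 32 * W.b₄) * dupNum W x +
    (12 * x ^ 3 - W.b₂ * x ^ 2 - 10 * W.b₄ * x + W.b₂ * W.b₄ - 27 * W.b₆) * psiTwoSq W x := by
  have hb := W.b_relation
  simp only [Δ, dupNum, psiTwoSq]
  linear_combination (-8 * W.b₄ - 12 * x ^ 2 - 2 * W.b₂ * x) * hb

variable [DecidableEq F]

lemma addX_self {x y : F} (h : W.Equation x y) (hy : y ≠ W.negY x y) :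
    W.addX x x (W.slope x x y y) * psiTwoSq W x = dupNum W x := by
  have h0 : 2 * y + W.a₁ * x + W.a₃ ≠ 0 := by
    rw [← sub_negY]; exact sub_ne_zero.mpr hy
  rw [slope_of_Y_ne rfl hy, ← sq_eq_psiTwoSq h, sub_negY]
  rw [equation_iff] at h
  have key : ∀ n d a₁ a₂ x : F, d ≠ 0 → ((n / d) ^ 2 + a₁ * (n / d) - a₂ - x - x) * d ^ 2 =
      n ^ 2 + a₁ * n * d - (a₂ + 2 * x) * d ^ 2 := by
    intro n d a₁ a₂ x hd
    field_simp
    ring
  rw [addX, key _ _ _ _ _ h0]
  simp only [dupNum, b₄, b₆, b₈]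
  linear_combination (-(W.a₁ ^ 2 + 4 * W.a₂ + 8 * x)) * h

/-- doubling an affine point. -/
lemma add_self_some {x y : F} (h : W.Nonsingular x y) (hy : y ≠ W.negY x y) :
    ∃ (x' y' : F) (h' : W.Nonsingular x' y'), some x y h + some x y h = some x' y' h' ∧
      x' * psiTwoSq W x = dupNum W x :=
  ⟨_, _, _, add_self_of_Y_ne hy, addX_self h.1 hy⟩

omit [DecidableEq F] in
lemma psiTwoSq_ne_zero_iff {x y : F} (h : W.Equation x y) :
    psiTwoSq W x ≠ 0 ↔ y ≠ W.negY x y := by
  rw [← sq_eq_psiTwoSq h, ← sub_negY, ← sub_ne_zero (a := y)]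
  exact pow_ne_zero_iff two_ne_zero

/-- A nonzero point killed by 3 has `x`-coordinate a root of the 3-division polynomial. -/
lemma psiThree_of_three_nsmul {x y : F} {h : W.Nonsingular x y}
    (h3 : (3 : ℕ) • (some x y h : W.Point) = 0) : psiThree W x = 0 := by
  have hne : y ≠ W.negY x y := by
    intro hy
    have h2 : (some x y h : W.Point) + some x y h = 0 := add_self_of_Y_eq hy
    have : (some x y h : W.Point) = 0 := by
      have : (3 : ℕ) • (some x y h : W.Point) = (some x y h + some x y h) + some x y h := by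
        abel
      rw [h3, h2, zero_add] at this
      exact this.symm
    exact some_ne_zero h this
  obtain ⟨x', y', h', hadd, hx'⟩ := add_self_some h hne
  have hneg : (some x' y' h' : W.Point) = - some x y h := by
    rw [← hadd, eq_neg_iff_add_eq_zero, ← h3]; abel
  rw [neg_some, some.injEq] at hneg
  rw [psiThree_eq, ← hx', hneg.1]
  ring

/-- Existence of a point of order 3. -/
lemma three_nsmul_of_psiThree {x y : F} {h : W.Nonsingular x y} (hΔ : W.Δ ≠ 0)
    (h3 : psiThree W x = 0) : (3 : ℕ) • (some x y h : W.Point) = 0 := by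
  have hD : psiTwoSq W x ≠ 0 := by
    intro hD
    apply hΔ
    rw [psiThree_eq, hD] at h3
    have h4 : dupNum W x = 0 := by linear_combination -h3
    rw [delta_eq x, hD, h4]; ring
  obtain ⟨x', y', h', hadd, hx'⟩ := add_self_some h ((psiTwoSq_ne_zero_iff h.1).mp hD)
  have hxx : x' = x := by
    apply mul_right_cancel₀ hD
    rw [hx']
    rw [psiThree_eq] at h3
    linear_combination -h3
  have hor : (some x' y' h' : W.Point) = some x y h ∨ (some x' y' h' : W.Point) = -some x y h :=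
    X_eq_iff.mp hxx
  have h3' : (3 : ℕ) • (some x y h : W.Point) = (some x y h + some x y h) + some x y h := by abel
  rcases hor with hor | hor
  · exfalso
    rw [← hadd] at hor
    have : (some x y h : W.Point) = 0 := by
      exact add_eq_left.mp hor
    exact some_ne_zero h this
  · rw [h3', hadd, hor, neg_add_cancel]

/-- The relations satisfied by a point of order 5. -/
lemma order_five {x y : F} {h : W.Nonsingular x y}
    (h5 : (5 : ℕ) • (some x y h : W.Point) = 0) :
    ∃ (x₂ y₂ : F) (h₂ : W.Nonsingular x₂ y₂), (2 : ℕ) • (some x y h : W.Point) = some x₂ y₂ h₂ ∧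
      x ≠ x₂ ∧ x₂ * psiTwoSq W x = dupNum W x ∧ x * psiTwoSq W x₂ = dupNum W x₂ := by
  set P : W.Point := some x y h with hP
  have hP0 : P ≠ 0 := some_ne_zero h
  have h2P : (2 : ℕ) • P ≠ 0 := by
    intro h2
    apply hP0
    have : P = (5 : ℕ) • P - (2 : ℕ) • ((2 : ℕ) • P) := by
      rw [← mul_nsmul]; norm_num
      rw [show (5 : ℕ) • P = (4 : ℕ) • P + P from succ_nsmul P 4]; abel
    rw [this, h5, h2]; simp
  have hne : y ≠ W.negY x y := by
    intro hy
    apply h2P
    rw [two_nsmul]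
    exact add_self_of_Y_eq hy
  obtain ⟨x₂, y₂, h₂, hadd, hx₂⟩ := add_self_some h hne
  have h22 : (2 : ℕ) • P = some x₂ y₂ h₂ := by rw [two_nsmul]; exact hadd
  have h4 : (2 : ℕ) • (some x₂ y₂ h₂ : W.Point) = -P := by
    rw [← h22, eq_neg_iff_add_eq_zero, ← mul_nsmul]; norm_num
    rw [← succ_nsmul P 4]; exact h5
  have hne2 : y₂ ≠ W.negY x₂ y₂ := by
    intro hy
    have : (2 : ℕ) • (some x₂ y₂ h₂ : W.Point) = 0 := by
      rw [two_nsmul]; exact add_self_of_Y_eq hy
    rw [this] at h4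
    exact hP0 (neg_eq_zero.mp h4.symm)
  obtain ⟨x₄, y₄, h₄, hadd₂, hx₄⟩ := add_self_some h₂ hne2
  rw [two_nsmul, hadd₂, hP, neg_some, some.injEq] at h4
  refine ⟨x₂, y₂, h₂, h22, ?_, hx₂, ?_⟩
  · intro hxx
    rcases (X_eq_iff (h₁ := h) (h₂ := h₂)).mp hxx with h' | h'
    · apply hP0
      rw [← h22, ← hP, two_nsmul] at h'
      exact (left_eq_add.mp h')
    · rw [← h22, ← hP] at h'
      have h3 : (3 : ℕ) • P = 0 := by
        rw [succ_nsmul, add_comm]; nth_rewrite 1 [h']; exact neg_add_cancel _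
      apply hP0
      have : P = (2 : ℕ) • ((3 : ℕ) • P) - (5 : ℕ) • P := by
        rw [← mul_nsmul]; norm_num
        rw [show (6 : ℕ) • P = (5 : ℕ) • P + P from succ_nsmul P 5]; abel
      rw [this, h3, h5]; simp
  · rw [← h4.1]; exact hx₄

/-- Existence of a point of order 5. -/
lemma five_nsmul_of {x y x₂ : F} {h : W.Nonsingular x y} (hΔ : W.Δ ≠ 0) (hx : x ≠ x₂)
    (h1 : x₂ * psiTwoSq W x = dupNum W x) (h2 : x * psiTwoSq W x₂ = dupNum W x₂) :
    (5 : ℕ) • (some x y h : W.Point) = 0 := by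
  have hD : ∀ {a b : F}, b * psiTwoSq W a = dupNum W a → psiTwoSq W a ≠ 0 := by
    intro a b hab hD
    apply hΔ
    rw [hD, mul_zero] at hab
    rw [delta_eq a, hD, ← hab]; ring
  obtain ⟨x', y', h', hadd, hx'⟩ := add_self_some h ((psiTwoSq_ne_zero_iff h.1).mp (hD h1))
  have hxx : x' = x₂ := mul_right_cancel₀ (hD h1) (hx'.trans h1.symm)
  subst hxx
  obtain ⟨x'', y'', h'', hadd', hx''⟩ := add_self_some h' ((psiTwoSq_ne_zero_iff h'.1).mp (hD h2))
  have hxx : x'' = x := mul_right_cancel₀ (hD h2) (hx''.trans h2.symm)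
  set P : W.Point := some x y h with hP
  have h4P : (4 : ℕ) • P = some x'' y'' h'' := by
    rw [← hadd', ← hadd]; abel
  rcases (X_eq_iff (h₁ := h'') (h₂ := h)).mp hxx with hor | hor
  · exfalso
    -- 3 P = 0
    rw [← h4P, ← hP] at hor
    have h3 : (3 : ℕ) • P = 0 := by
      rw [succ_nsmul] at hor
      exact add_eq_right.mp hor
    have h3' := psiThree_of_three_nsmul h3
    apply hx
    rw [psiThree_eq] at h3'
    apply mul_right_cancel₀ (hD h1)
    rw [hx']
    linear_combination h3'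
  · rw [← h4P, ← hP] at hor
    rw [succ_nsmul, hor, neg_add_cancel]

end Field

end Fermat.Agent.X015
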